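import Fermat.Agent.S36.Top.SupBij
import Fermat.Agent.GAL.Final

/-!
# The leaves [T35-RANK], [T35-CARDJ], [T35-CARDHOM], [T35-XISURJ], [T35-OLDKILL] in the exact shapes
of `SS/Top35/OldKill.lean`
-/

set_option autoImplicit false

open AlgebraicCurve ModularCurve CongruenceSubgroup

namespace Fermat.Agent.S36.Top

open Fermat.Agent.S24 Fermat.Agent.GAL Fermat.Agent.GAL.PC Fermat.Agent.GAL.EigenChar

variable (N : ℕ) [NeZero N]

theorem card_torsion_JZero_pow (p : ℕ) [Fact p.Prime] (k : ℕ) :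
    Nat.card {x : JZero N // p ^ k • x = 0} =
      p ^ (2 * Module.finrank ℂ (CuspForm (Gamma0 N) 2) * k) := by
  have hp : p.Prime := Fact.out
  have h := card_torsion_JZero N (p ^ k) (pow_pos hp.pos k)
  rw [← pow_mul, mul_comm k] at h
  rw [← h]
  refine Nat.card_congr (Equiv.subtypeEquivRight fun x => ?_)
  rw [Pic0.mem_torsion, natCast_zsmul]

theorem card_addHom_perLat (m : ℕ) :
    Nat.card (perLat N →+ ZMod m) = m ^ Module.finrank ℤ (perLat N) :=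
  card_addHom_zmod m

variable {N}

theorem exists_coe_Xi_eq {p : ℕ} (hp : p.Prime) (k : ℕ) (κ : GoodHom N (p ^ k) →+ JZero N)
    (hκ : Function.Injective κ) (x : JZero N) (hx : p ^ k • x = 0) :
    ∃ ψ : perLat N →+ ZMod (p ^ k), ((Xi κ k rfl ψ : ptors (JZero N) p) : JZero N) = x := by
  obtain ⟨ψ, hψ⟩ := exists_perChar_of_torsion (pow_pos hp.pos k) κ hκ x hx
  exact ⟨ψ, (coe_Xi κ k rfl ψ).trans hψ⟩

theorem oldKill {p : ℕ} (hp : p.Prime) (S : Set ℕ)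
    (hNS : ∀ ℓ : ℕ, ℓ.Prime → ℓ ∉ S → ¬ ℓ ∣ N)
    (f : MvPolynomial ℕ ℤ →+* Module.End ℤ (ptors (JZero N) p))
    (hf : ∀ ℓ, f (MvPolynomial.X ℓ) = Tp N p S ℓ)
    (t : MvPolynomial ℕ ℤ) (ht : MvPolynomial.aeval (heckeT N S) t = 0)
    (x : ptors (JZero N) p) : f t x = 0 :=
  oldkill hp S hNS (fun k => Final.sup N (p ^ k) (pow_ne_zero _ hp.ne_zero)) f hf t ht x

theorem exists_rank' {p : ℕ} (hp : p.Prime) :
    ∃ d : ℕ, ∀ k : ℕ, ∃ ι : ptors (JZero N) p → (Fin d → ZMod (p ^ k)),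
      (∀ x y, p ^ k • x = 0 → p ^ k • y = 0 → ι (x + y) = ι x + ι y) ∧
      ∀ x, p ^ k • x = 0 → ι x = 0 → x = 0 :=
  exists_rank hp (fun k => Final.sup N (p ^ k) (pow_ne_zero _ hp.ne_zero))

end Fermat.Agent.S36.Top
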