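import Fermat.Agent.RR.Modular
import Fermat.Agent.S27.Up
import Fermat.Agent.S20

/-!
# S36 / TOP36 (shared with TOP-35) : the number of `n`-torsion points of `J₀(N)`   `[T35-CARDJ]`

`# J₀(N)(ℚ̄)[n] = n ^ (2 dim S₂(Γ₀(N)))`, from S27 (count), S24 + Riemann-Roch (adelic genus of the
function field = genus formula) and S20 (dimension formula).
-/

set_option autoImplicit false

open AlgebraicCurve ModularCurve CongruenceSubgroup

namespace Fermat.Agent.S36.Top

open Fermat.Agent.S24

theorem genusFF_eq_finrank (N : ℕ) [NeZero N] :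
    genusFF Kb (FN N) = Module.finrank ℂ (CuspForm (Gamma0 N) 2) := by
  have h1 := RR.genusFF_FN N
  have h2 := S20.result N
  exact_mod_cast h1.trans h2.symm

/-- **[T35-CARDJ]** -/
theorem card_torsion_JZero (N : ℕ) [NeZero N] (n : ℕ) (hn : 0 < n) :
    Nat.card (Pic0.torsion Kb (FN N) n) = n ^ (2 * Module.finrank ℂ (CuspForm (Gamma0 N) 2)) := by
  have : S27.IsFF Kb (FN N) := ⟨⟨jF N, isFiniteParam_jF_of N (CPAlt.charpolyCoeff N)⟩⟩
  rw [S27.card_torsion Kb (FN N) n hn, genusFF_eq_finrank]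

end Fermat.Agent.S36.Top
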