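import Fermat.Agent.S36.Top.Abs

/-!
# S36 / TOP36 : the abstract theorem, in the form with a commuting family of operators `T ℓ`
(the setting of `Fermat.Agent.GAL.PC.pc_of_abstract_raw`).
-/

set_option autoImplicit false

namespace Fermat.Agent.S36.Top

open Fermat.Agent.GAL Fermat.Agent.GAL.PC Polynomial IsLocalRing

local notation "Qbar" => AlgebraicClosure ℚ
local notation "GQ" => (AlgebraicClosure ℚ ≃ₐ[ℚ] AlgebraicClosure ℚ)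

theorem exists_trace_ne_two_T (hC : Fermat.Agent.Cheb.PreludeSpec) {p : ℕ} (hp : p.Prime)
    (S : Finset ℕ) (hpS : p ∈ S)
    {J : Type*} [AddCommGroup J] [DistribMulAction GQ J]
    (T : ℕ → Module.End ℤ J) (hTcomm : ∀ i j, T i * T j = T j * T i)
    (hGT : ∀ (ℓ : ℕ) (σ : GQ) (x : J), σ • T ℓ x = T ℓ (σ • x))
    (hUnr : ∀ q : ℕ, q.Prime → q ∉ (↑S : Set ℕ) → ∀ A : ValuationSubring Qbar,
      A.LiesOverPrime q →
      ∀ σ ∈ A.inertiaSubgroupIn ℚ, ∀ x : J, (∃ n : ℕ, p ^ n • x = 0) → σ • x = x)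
    (hFrob : ∀ ℓ : ℕ, ℓ.Prime → ℓ ∉ S → ∀ A : ValuationSubring Qbar, A.LiesOverPrime ℓ →
      ∀ σ : GQ, A.IsFrobeniusAt σ ℓ → ∀ x : J, (∃ n : ℕ, p ^ n • x = 0) →
        σ • σ • x - T ℓ (σ • x) + ℓ • x = 0)
    (hStab : ∀ x : J, (∃ n : ℕ, p ^ n • x = 0) →
      ∃ L : IntermediateField ℚ Qbar, FiniteDimensional ℚ L ∧
      ∀ σ : GQ, (∀ y ∈ L, σ y = y) → σ • x = x)
    {𝕋 Λ : Type*} [CommRing 𝕋] [AddCommGroup Λ] [Module.Free ℤ Λ] [Module.Finite ℤ Λ]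
    (a : ℕ → 𝕋) (lat : 𝕋 →+* Module.End ℤ Λ) (hlat : Function.Injective lat)
    (hSUP : ∀ k : ℕ, ∃ Ξ : (Λ →+ ZMod (p ^ k)) →+ J, Function.Injective Ξ ∧
      ∀ ℓ ψ, T ℓ (Ξ ψ) = Ξ (ψ.comp (lat (a ℓ)).toAddMonoidHom))
    (I : Subgroup GQ) (hI : ∀ τ ∈ I, CycEq p τ 1)
    (d : ℕ) (hRank : ∀ k : ℕ, ∃ ι : J → (Fin d → ZMod (p ^ k)),
      (∀ x y, p ^ k • x = 0 → p ^ k • y = 0 → ι (x + y) = ι x + ι y) ∧
      ∀ x, p ^ k • x = 0 → ι x = 0 → x = 0)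
    (P₀ : MvPolynomial ℕ ℤ)
    (hP₀ : ∀ f : MvPolynomial ℕ ℤ →+* Module.End ℤ J, (∀ ℓ, f (MvPolynomial.X ℓ) = T ℓ) →
      ∀ x : J, (∃ n : ℕ, p ^ n • x = 0) → (∀ τ ∈ I, τ • x = x) → f P₀ x = 0)
    {O : Type} [CommRing O] [IsDomain O] [IsLocalRing O] [IsNoetherianRing O]
    (hpO : (p : O) ∈ maximalIdeal O)
    (χ : 𝕋 →+* O) (hχ : χ (MvPolynomial.aeval a P₀) ≠ 0)
    (ρ : GaloisRepAdic O)
    (hρ : ∀ ℓ : ℕ, ℓ.Prime → ℓ ∉ (↑S : Set ℕ) → ∀ A : ValuationSubring Qbar,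
      A.LiesOverPrime ℓ → ∀ σ : GQ, A.IsFrobeniusAt σ ℓ →
        LinearMap.charpoly (ρ.ρ σ) = X ^ 2 - C (χ (a ℓ)) * X + C ((ℓ : O))) :
    ∃ τ ∈ I, LinearMap.trace O ρ.V (ρ.ρ τ) ≠ 2 := by
  obtain ⟨f, hf⟩ := exists_ringHom_of_commute T hTcomm
  let _ : Module (MvPolynomial ℕ ℤ) J := Module.compHom J f
  have hsmul : ∀ (P : MvPolynomial ℕ ℤ) (x : J), P • x = f P x := fun _ _ => rfl
  have hcomm : SMulCommClass GQ (MvPolynomial ℕ ℤ) J := ⟨fun σ P x => by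
    rw [hsmul, hsmul]
    induction P using MvPolynomial.induction_on generalizing x with
    | C a =>
      rw [eq_intCast (MvPolynomial.C : ℤ →+* MvPolynomial ℕ ℤ) a, map_intCast,
        Module.End.intCast_apply, Module.End.intCast_apply, smul_comm]
    | add P Q hP hQ => rw [map_add, LinearMap.add_apply, LinearMap.add_apply, smul_add, hP, hQ]
    | mul_X P i hP =>
      rw [map_mul, Module.End.mul_apply, Module.End.mul_apply, hP, hf, hGT]⟩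
  let ev : MvPolynomial ℕ ℤ →+* 𝕋 := (MvPolynomial.aeval a).toRingHom
  have hev : ∀ ℓ, ev (MvPolynomial.X ℓ) = a ℓ := fun ℓ => MvPolynomial.aeval_X _ ℓ
  refine exists_trace_ne_two hC hp S hpS (𝓗 := MvPolynomial ℕ ℤ) (𝕋 := 𝕋) (J := J)
    (fun ℓ => MvPolynomial.X ℓ) ev hUnr
    (fun ℓ hℓ hS A hA σ hσ x hx => by
      rw [hsmul, hf]
      exact hFrob ℓ hℓ hS A hA σ hσ x hx) hStab lat hlat
    (fun k => by
      obtain ⟨Ξ, hΞ, hΞT⟩ := hSUP k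
      refine ⟨Ξ, hΞ, fun h ψ => ?_⟩
      rw [hsmul]
      exact equivariant_of_gen f (lat.comp ev) Ξ (fun i ψ => by
        rw [hf, hΞT, RingHom.comp_apply, hev]) h ψ)
    I hI d hRank P₀ (fun x hx hfix => hP₀ f hf x hx hfix) hpO χ hχ ρ
    (fun ℓ hℓ hS A hA σ hσ => by
      rw [hev]
      exact hρ ℓ hℓ hS A hA σ hσ)

end Fermat.Agent.S36.Top
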