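import Fermat.Agent.GAL.HeckeGalois
import Fermat.Agent.GAL.PC.Glue

/-!
# S36 / TOP36 (shared with TOP-35) : the push-forward maps `J₀(M q) → J₀(M)`   `[T35-PUSH]`

* `pic0Push φ` : the push-forward (norm) homomorphism `Pic⁰(F') → Pic⁰(F)` along `φ : F → F'`;
* `pushA M q`, `pushB M q : J₀(M q) → J₀(M)` along `α` (`τ ↦ τ`) and `β` (`τ ↦ q τ`);
* they commute with Galois, hence (Eichler-Shimura: `T_ℓ = Frob + ℓ Frob⁻¹` on `p`-power torsion at
  both levels) with the Hecke operators `T_ℓ`, `ℓ ∤ M q p`, on `p`-power torsion.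
-/

set_option autoImplicit false
set_option linter.style.haveILetI false
set_option linter.unusedSectionVars false

open AlgebraicCurve ModularCurve

namespace Fermat.Agent.S36.Top

open Fermat.Agent.S24 Fermat.Agent.GAL Fermat.Agent.GAL.FFExt Fermat.Agent.GAL.FFSemi
  Fermat.Agent.GAL.HeckeInputs Fermat.Agent.GAL.HeckeGalois Fermat.Agent.GAL.PC

local notation "Qbar" => AlgebraicClosure ℚ
local notation "GQ" => (AlgebraicClosure ℚ ≃ₐ[ℚ] AlgebraicClosure ℚ)

section General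

variable {K F F' : Type*} [Field K] [Field F] [Field F'] [Algebra K F] [Algebra K F']
variable (φ : F →ₐ[K] F') (hφ : φ.toRingHom.IsIntegral) (hfin : FiniteAlong K φ)
  (hN : NormFormulaAlong K φ hfin)

/-- push-forward of divisors of degree zero -/
noncomputable def degZeroPush :
    Divisor.degZero (K := K) (F := F') →+ Divisor.degZero (K := K) (F := F) :=
  ((Divisor.pushforwardAlong φ hφ).domRestrict (Divisor.degZero (K := K) (F := F'))).codRestrict _
    (fun D => Divisor.pushforwardAlong_mem_degZero φ hφ D.2)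

@[simp] theorem coe_degZeroPush (D : Divisor.degZero (K := K) (F := F')) :
    (degZeroPush φ hφ D : Divisor K F) = Divisor.pushforwardAlong φ hφ (D : Divisor K F') := rfl

/-- push-forward of divisor classes of degree zero -/
noncomputable def pic0Push : Pic0 K F' →+ Pic0 K F :=
  QuotientAddGroup.map _ _ (degZeroPush φ hφ) (by
    rintro ⟨D, hD0⟩ hD
    simp only [AddSubgroup.mem_addSubgroupOf] at hD ⊢
    exact Divisor.isPrincipal_pushforwardAlong φ hφ hfin hN hD)

theorem pic0Push_mk (D : Divisor.degZero (K := K) (F := F')) :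
    pic0Push φ hφ hfin hN (Pic0.mk D) = Pic0.mk (degZeroPush φ hφ D) := rfl

theorem pic0Push_smul [IsAlgClosed K] [CharZero K] {y : F} (hy : IsFiniteParam K y)
    {g : SemilinearAut K F} {g' : SemilinearAut K F'} (h : Compat φ g g') (x : Pic0 K F') :
    pic0Push φ hφ hfin hN (g' • x) = g • pic0Push φ hφ hfin hN x := by
  obtain ⟨D, rfl⟩ := Pic0.mk_surjective x
  rw [SemilinearAut.pic0_smul_mk, pic0Push_mk, pic0Push_mk, SemilinearAut.pic0_smul_mk]
  congr 1
  apply Subtype.ext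
  rw [coe_degZeroPush, SemilinearAut.coe_degZeroSMulHom, SemilinearAut.coe_degZeroSMulHom,
    coe_degZeroPush]
  exact pushforwardAlong_smul φ hφ hfin hy h D

end General

section Modular

variable (M q : ℕ) [NeZero M] [NeZero q]

/-- the push-forward `J₀(M q) → J₀(M)` along `α` (`τ ↦ τ`) -/
noncomputable def pushA : JZero (M * q) →+ JZero M :=
  pic0Push (heckeAlphaBar Qbar M q) (heckeAlphaBarIntegral M q) (finiteAlong_alpha M q)
    (normFormulaAlong_alpha M q)

/-- the push-forward `J₀(M q) → J₀(M)` along `β` (`τ ↦ q τ`) -/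
noncomputable def pushB : JZero (M * q) →+ JZero M :=
  pic0Push (heckeBetaBar Qbar M q) (heckeBetaBarIntegral M q) (finiteAlong_beta M q)
    (normFormulaAlong_beta M q)

theorem pushA_mk (D : Divisor.degZero (K := Qbar) (F := modularFunctionFieldBar (M * q))) :
    pushA M q (Pic0.mk D) =
      Pic0.mk (degZeroPush (heckeAlphaBar Qbar M q) (heckeAlphaBarIntegral M q) D) := rfl

theorem pushB_mk (D : Divisor.degZero (K := Qbar) (F := modularFunctionFieldBar (M * q))) :
    pushB M q (Pic0.mk D) =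
      Pic0.mk (degZeroPush (heckeBetaBar Qbar M q) (heckeBetaBarIntegral M q) D) := rfl

theorem pushA_smul (σ : GQ) (x : JZero (M * q)) : pushA M q (σ • x) = σ • pushA M q x := by
  rw [galois_smul_pic0_def, galois_smul_pic0_def]
  exact pic0Push_smul _ _ _ _ (isFiniteParam_jF M) (compat_alpha M q σ) x

theorem pushB_smul (σ : GQ) (x : JZero (M * q)) : pushB M q (σ • x) = σ • pushB M q x := by
  rw [galois_smul_pic0_def, galois_smul_pic0_def]
  exact pic0Push_smul _ _ _ _ (isFiniteParam_jF M) (compat_beta M q σ) x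

end Modular

section Abstract

/-- abstract form of `T = φ + ℓ φ⁻¹` from the quadratic relation -/
theorem eq_frob_of_quad {G J : Type*} [Group G] [AddCommGroup J] [DistribMulAction G J]
    (T : J →+ J) (φ : G) (ℓ : ℕ) (x : J)
    (h : φ • φ • φ⁻¹ • x - T (φ • φ⁻¹ • x) + ℓ • φ⁻¹ • x = 0) :
    T x = φ • x + ℓ • (φ⁻¹ • x) := by
  rw [smul_inv_smul] at h
  have h2 : φ • x + ℓ • φ⁻¹ • x - T x = 0 := by
    rw [← h]; abel
  exact (sub_eq_zero.mp h2).symm

theorem map_eq_of_frob {G J J' : Type*} [Group G] [AddCommGroup J] [AddCommGroup J']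
    [DistribMulAction G J] [DistribMulAction G J'] (π : J →+ J')
    (hπ : ∀ (σ : G) (x : J), π (σ • x) = σ • π x) (φ : G) (ℓ : ℕ) (x y : J) (y' : J')
    (h : y = φ • x + ℓ • (φ⁻¹ • x)) (h' : y' = φ • π x + ℓ • (φ⁻¹ • π x)) : π y = y' := by
  rw [h, h', map_add, map_nsmul, hπ, hπ]

variable {p : ℕ}

theorem map_mem_ptors' {J J' : Type*} [AddCommGroup J] [AddCommGroup J'] (π : J →+ J') {x : J}
    (hx : x ∈ ptors J p) : π x ∈ ptors J' p := by
  obtain ⟨n, hn⟩ := hx
  exact ⟨n, by rw [← map_nsmul, hn, map_zero]⟩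

/-- a homomorphism restricted to the `p`-power torsion -/
noncomputable def ptorsMap {J J' : Type*} [AddCommGroup J] [AddCommGroup J'] (p : ℕ) (π : J →+ J') :
    ptors J p →+ ptors J' p where
  toFun x := ⟨π x.1, map_mem_ptors' π x.2⟩
  map_zero' := Subtype.ext (map_zero π)
  map_add' x y := Subtype.ext (map_add π x.1 y.1)

@[simp] theorem coe_ptorsMap {J J' : Type*} [AddCommGroup J] [AddCommGroup J'] (π : J →+ J')
    (x : ptors J p) : ((ptorsMap p π x : ptors J' p) : J') = π x.1 := rfl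

theorem ptorsMap_restrictPtors {J J' : Type*} [AddCommGroup J] [AddCommGroup J'] (π : J →+ J')
    (T : J →+ J) (T' : J' →+ J') (h : ∀ x ∈ ptors J p, π (T x) = T' (π x)) (x : ptors J p) :
    ptorsMap p π (restrictPtors p T x) = restrictPtors p T' (ptorsMap p π x) :=
  Subtype.ext (h x.1 x.2)

theorem ptorsMap_zero {J J' : Type*} [AddCommGroup J] [AddCommGroup J'] (π : J →+ J')
    (x : ptors J p) :
    ptorsMap p π ((0 : Module.End ℤ (ptors J p)) x) =
      (0 : Module.End ℤ (ptors J' p)) (ptorsMap p π x) := by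
  rw [LinearMap.zero_apply, LinearMap.zero_apply, map_zero]

/-- commutation on generators implies commutation with all polynomials -/
theorem map_poly_of_gen {ι X X' : Type*} [AddCommGroup X] [AddCommGroup X'] (π : X →+ X')
    (f : MvPolynomial ι ℤ →+* Module.End ℤ X) (f' : MvPolynomial ι ℤ →+* Module.End ℤ X')
    (h : ∀ i x, π (f (MvPolynomial.X i) x) = f' (MvPolynomial.X i) (π x))
    (t : MvPolynomial ι ℤ) (x : X) : π (f t x) = f' t (π x) := by
  induction t using MvPolynomial.induction_on generalizing x with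
  | C a =>
    rw [eq_intCast (MvPolynomial.C : ℤ →+* MvPolynomial ι ℤ) a, map_intCast, map_intCast,
      Module.End.intCast_apply, Module.End.intCast_apply, map_zsmul]
  | add P Q hP hQ =>
    rw [map_add, map_add, LinearMap.add_apply, LinearMap.add_apply, map_add, hP, hQ]
  | mul_X P i hP =>
    rw [map_mul, map_mul, Module.End.mul_apply, Module.End.mul_apply, hP, h]

end Abstract

section Hecke

variable {N N' : ℕ} [NeZero N] [NeZero N'] {p : ℕ}

/-- On `p`-power torsion `T_ℓ = φ + ℓ φ⁻¹` for every Frobenius lift `φ`. -/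
theorem hecke_eq_frob_of (hQ : ESQuad N p) (L : Nat.Primes) (hℓNp : ¬ (L : ℕ) ∣ N * p)
    {A : ValuationSubring Qbar} (hA : A.LiesOverPrime L) {φ : GQ} (hφ : A.IsFrobeniusAt φ L)
    (x : JZero N) (hx : x ∈ ptors (JZero N) p) :
    heckeOperatorBar N L x = φ • x + (L : ℕ) • (φ⁻¹ • x) :=
  eq_frob_of_quad (heckeOperatorBar N L).toAddMonoidHom φ (L : ℕ) x
    (hQ L L.2 hℓNp A hA φ hφ (φ⁻¹ • x) (smul_mem_ptors φ⁻¹ hx))

variable (π : JZero N →+ JZero N') (hπ : ∀ (σ : GQ) (x : JZero N), π (σ • x) = σ • π x)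

include hπ in
/-- A Galois equivariant homomorphism commutes with `T_ℓ` on `p`-power torsion. -/
theorem map_hecke_of_equivariant (hQ : ESQuad N p) (hQ' : ESQuad N' p) (L : Nat.Primes)
    (hL : ¬ (L : ℕ) ∣ N * p) (hL' : ¬ (L : ℕ) ∣ N' * p) (x : JZero N)
    (hx : x ∈ ptors (JZero N) p) :
    π (heckeOperatorBar N L x) = heckeOperatorBar N' L (π x) := by
  obtain ⟨A, hA⟩ := Fermat.Agent.S54.exists_liesOverPrime L.2
  obtain ⟨φ, hφ⟩ := Fermat.Agent.S54.exists_isFrobeniusAt_of_liesOverPrime L.2 A hA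
  exact map_eq_of_frob π hπ φ (L : ℕ) x _ _ (hecke_eq_frob_of hQ L hL hA hφ x hx)
    (hecke_eq_frob_of hQ' L hL' hA hφ _ (map_mem_ptors' π hx))

include hπ in
theorem ptorsMap_Tp (hQ : ESQuad N p) (hQ' : ESQuad N' p) (S : Set ℕ)
    (hS : ∀ ℓ : ℕ, ℓ.Prime → ℓ ∉ S → ¬ ℓ ∣ N * p) (hS' : ∀ ℓ : ℕ, ℓ.Prime → ℓ ∉ S → ¬ ℓ ∣ N' * p)
    (ℓ : ℕ) (x : ptors (JZero N) p) :
    ptorsMap p π (Tp N p S ℓ x) = Tp N' p S ℓ (ptorsMap p π x) := by
  by_cases h : ℓ.Prime ∧ ℓ ∉ S
  · exact Eq.mpr (congrArg₂ (fun (T : Module.End ℤ (ptors (JZero N) p))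
        (T' : Module.End ℤ (ptors (JZero N') p)) => ptorsMap p π (T x) = T' (ptorsMap p π x))
        (Tp_of_good h.1 h.2) (Tp_of_good h.1 h.2))
      (ptorsMap_restrictPtors π (heckeOperatorBar N ⟨ℓ, h.1⟩).toAddMonoidHom
        (heckeOperatorBar N' ⟨ℓ, h.1⟩).toAddMonoidHom
        (fun y hy => map_hecke_of_equivariant π hπ hQ hQ' ⟨ℓ, h.1⟩ (hS ℓ h.1 h.2)
          (hS' ℓ h.1 h.2) y hy) x)
  · exact Eq.mpr (congrArg₂ (fun (T : Module.End ℤ (ptors (JZero N) p))
        (T' : Module.End ℤ (ptors (JZero N') p)) => ptorsMap p π (T x) = T' (ptorsMap p π x))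
        (Tp_of_bad h) (Tp_of_bad h)) (ptorsMap_zero π x)

include hπ in
/-- A Galois equivariant homomorphism commutes with all Hecke polynomials on `p`-power torsion. -/
theorem ptorsMap_poly (hQ : ESQuad N p) (hQ' : ESQuad N' p) (S : Set ℕ)
    (hS : ∀ ℓ : ℕ, ℓ.Prime → ℓ ∉ S → ¬ ℓ ∣ N * p) (hS' : ∀ ℓ : ℕ, ℓ.Prime → ℓ ∉ S → ¬ ℓ ∣ N' * p)
    (f : MvPolynomial ℕ ℤ →+* Module.End ℤ (ptors (JZero N) p))
    (hf : ∀ ℓ, f (MvPolynomial.X ℓ) = Tp N p S ℓ)
    (f' : MvPolynomial ℕ ℤ →+* Module.End ℤ (ptors (JZero N') p))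
    (hf' : ∀ ℓ, f' (MvPolynomial.X ℓ) = Tp N' p S ℓ)
    (t : MvPolynomial ℕ ℤ) (x : ptors (JZero N) p) :
    ptorsMap p π (f t x) = f' t (ptorsMap p π x) :=
  map_poly_of_gen (ptorsMap p π) f f' (fun i y =>
    Eq.mpr (congrArg₂ (fun (T : Module.End ℤ (ptors (JZero N) p))
        (T' : Module.End ℤ (ptors (JZero N') p)) => ptorsMap p π (T y) = T' (ptorsMap p π y))
        (hf i) (hf' i)) (ptorsMap_Tp π hπ hQ hQ' S hS hS' i y)) t x

end Hecke

end Fermat.Agent.S36.Top
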