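import Fermat.Agent.SS.Top35.Wire
import Fermat.Agent.S36.Top.AbsT
import Fermat.Agent.S36.Top.ForTop35
import Fermat.Agent.S36.Top.Push

/-!
# S36 / TOP36 : S36 from the geometric interface `Geo36`
-/

set_option autoImplicit false

noncomputable section

open Polynomial IsLocalRing ModularCurve CongruenceSubgroup

namespace Fermat.Agent.S36.Top

open Fermat.Agent.GAL Fermat.Agent.GAL.PC Fermat.Agent.GAL.EigenChar

local notation "Qbar" => AlgebraicClosure ℚ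
local notation "GQ" => (AlgebraicClosure ℚ ≃ₐ[ℚ] AlgebraicClosure ℚ)

/-- **Interface (GEO36)**, the geometric input of S36 (`q ∣ M`, `q² ∤ M`, `p ≠ q`): a `p`-power
torsion class of `J₀(M q)` which is fixed by an inertia group at `q` and dies in `J₀(M)` under both
push-forwards is killed by a fixed integer `e ≠ 0`. -/
def Geo36 (M q p : ℕ) [NeZero M] [NeZero q] : Prop :=
  ∃ e : ℕ, e ≠ 0 ∧ ∀ A : ValuationSubring Qbar, A.LiesOverPrime q →
    ∀ y : JZero (M * q), (∃ n : ℕ, p ^ n • y = 0) →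
      (∀ τ ∈ A.inertiaSubgroupIn ℚ, τ • y = y) →
      SS.pushA M q y = 0 → SS.pushB M q y = 0 → e • y = 0

theorem pushA_eq (M q : ℕ) [NeZero M] [NeZero q] : pushA M q = SS.pushA M q := rfl

theorem pushB_eq (M q : ℕ) [NeZero M] [NeZero q] : pushB M q = SS.pushB M q := rfl

/-- (GEO36) with the push-forward maps of `S36/Top/Push.lean` (they are the same maps). -/
theorem geo36_iff (M q p : ℕ) [NeZero M] [NeZero q] :
    Geo36 M q p ↔ ∃ e : ℕ, e ≠ 0 ∧ ∀ A : ValuationSubring Qbar, A.LiesOverPrime q →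
      ∀ y : JZero (M * q), (∃ n : ℕ, p ^ n • y = 0) →
        (∀ τ ∈ A.inertiaSubgroupIn ℚ, τ • y = y) →
        pushA M q y = 0 → pushB M q y = 0 → e • y = 0 := Iff.rfl

/-- **Interface (CORE36)**: the Hecke operator `P₀` kills the inertia invariants of the `p`-power
torsion of `J₀(N)`. -/
def Core36 (N p : ℕ) [NeZero N] (S : Set ℕ) (I : Subgroup GQ) (P₀ : MvPolynomial ℕ ℤ) : Prop :=
  ∀ f : MvPolynomial ℕ ℤ →+* Module.End ℤ (ptors (JZero N) p),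
    (∀ ℓ, f (MvPolynomial.X ℓ) = Tp N p S ℓ) → ∀ x : ptors (JZero N) p,
      (∀ τ ∈ I, τ • x = x) → f P₀ x = 0

section Abstract

/-- Galois commutes with Hecke polynomials (abstract form). -/
theorem smul_poly_of_gen {G ι X : Type*} [Group G] [AddCommGroup X] [DistribMulAction G X]
    (f : MvPolynomial ι ℤ →+* Module.End ℤ X) (T : ι → Module.End ℤ X)
    (hf : ∀ i, f (MvPolynomial.X i) = T i) (h : ∀ i (σ : G) x, σ • T i x = T i (σ • x))
    (t : MvPolynomial ι ℤ) (σ : G) (x : X) : σ • f t x = f t (σ • x) := by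
  induction t using MvPolynomial.induction_on generalizing x with
  | C a =>
    rw [eq_intCast (MvPolynomial.C : ℤ →+* MvPolynomial ι ℤ) a, map_intCast,
      Module.End.intCast_apply, Module.End.intCast_apply, smul_comm]
  | add P Q hP hQ => rw [map_add, LinearMap.add_apply, LinearMap.add_apply, smul_add, hP, hQ]
  | mul_X P i hP =>
    rw [map_mul, Module.End.mul_apply, Module.End.mul_apply, hP, hf, h]

theorem poly_natCast_mul {ι X : Type*} [AddCommGroup X]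
    (f : MvPolynomial ι ℤ →+* Module.End ℤ X) (e : ℕ) (t : MvPolynomial ι ℤ) (x : X) :
    f ((e : MvPolynomial ι ℤ) * t) x = e • f t x := by
  rw [map_mul, map_natCast, Module.End.mul_apply, Module.End.natCast_apply]

theorem coe_eq_zero_ptors {J : Type*} [AddCommGroup J] {p : ℕ} (e : ℕ) (y : ptors J p)
    (h : e • (y : J) = 0) : e • y = 0 := Subtype.ext (by simpa using h)

theorem coe_fixed_ptors {G J : Type*} [Group G] [AddCommGroup J] [DistribMulAction G J] {p : ℕ}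
    (τ : G) (y : ptors J p) (h : τ • y = y) : τ • (y : J) = y := congrArg Subtype.val h

end Abstract

theorem Tp_smul {N : ℕ} [NeZero N] {p : ℕ} (S : Set ℕ) (ℓ : ℕ) (σ : GQ)
    (x : ptors (JZero N) p) : σ • Tp N p S ℓ x = Tp N p S ℓ (σ • x) := by
  by_cases h : ℓ.Prime ∧ ℓ ∉ S
  · exact Eq.mpr (congrArg (fun T : Module.End ℤ (ptors (JZero N) p) => σ • T x = T (σ • x))
      (Tp_of_good h.1 h.2))
      (ptors_comm σ (heckeOperatorBar N ⟨ℓ, h.1⟩).toAddMonoidHom x (galHecke N ⟨ℓ, h.1⟩ σ x.1))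
  · exact Eq.mpr (congrArg (fun T : Module.End ℤ (ptors (JZero N) p) => σ • T x = T (σ • x))
      (Tp_of_bad h)) (ptors_comm_zero σ x)

/-- (CORE36) from (GEO36), for a Hecke operator which kills the level `M`. -/
theorem core36_of_geo36 {M q p : ℕ} [NeZero M] [NeZero q] (hp : p.Prime)
    (e : ℕ) {A : ValuationSubring Qbar}
    (hGeo : ∀ y : JZero (M * q), (∃ n : ℕ, p ^ n • y = 0) →
      (∀ τ ∈ A.inertiaSubgroupIn ℚ, τ • y = y) →
      SS.pushA M q y = 0 → SS.pushB M q y = 0 → e • y = 0) (S : Set ℕ)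
    (hS : ∀ ℓ : ℕ, ℓ.Prime → ℓ ∉ S → ¬ ℓ ∣ M * q * p)
    (t₀ : MvPolynomial ℕ ℤ) (ht₀ : MvPolynomial.aeval (heckeT M S) t₀ = 0) :
    Core36 (M * q) p S (A.inertiaSubgroupIn ℚ) ((e : MvPolynomial ℕ ℤ) * t₀) := by
  intro f hf x hx
  have hS1 : ∀ ℓ : ℕ, ℓ.Prime → ℓ ∉ S → ¬ ℓ ∣ M * p := fun ℓ hℓ hℓS hd => by
    apply hS ℓ hℓ hℓS
    rcases (Nat.Prime.dvd_mul hℓ).mp hd with h | h
    · exact (h.mul_right q).mul_right p
    · exact h.mul_left _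
  have hS2 : ∀ ℓ : ℕ, ℓ.Prime → ℓ ∉ S → ¬ ℓ ∣ M := fun ℓ hℓ hℓS hd =>
    hS1 ℓ hℓ hℓS (hd.mul_right p)
  obtain ⟨f', hf'⟩ := exists_ringHom_of_commute (Tp M p S)
    (Tp_comm (galHecke M) (SS.es_all M p).2 hS1)
  have key : ∀ (u : JZero (M * q) →+ JZero M), (∀ (σ : GQ) x, u (σ • x) = σ • u x) →
      u (f t₀ x : ptors (JZero (M * q)) p) = 0 := by
    intro u hu
    have h1 := SS.map_poly_of_equivariant (SS.es_all (M * q) p).2 (SS.es_all M p).2 u hu S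
      (fun ℓ hℓ hℓS => ⟨hS ℓ hℓ hℓS, hS1 ℓ hℓ hℓS⟩) f hf f' hf' t₀ x
    rw [oldKill hp S hS2 f' hf' t₀ ht₀] at h1
    exact congrArg Subtype.val h1
  have hfix : ∀ τ ∈ A.inertiaSubgroupIn ℚ, τ • (f t₀ x) = f t₀ x := fun τ hτ =>
    (smul_poly_of_gen f (Tp (M * q) p S) hf (Tp_smul S) t₀ τ x).trans
      (congrArg (f t₀) (hx τ hτ))
  have h := hGeo (f t₀ x : ptors (JZero (M * q)) p) (f t₀ x).2
    (fun τ hτ => coe_fixed_ptors τ (f t₀ x) (hfix τ hτ))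
    (key (pushA M q) (pushA_smul M q)) (key (pushB M q) (pushB_smul M q))
  exact (poly_natCast_mul f e t₀ x).trans (coe_eq_zero_ptors e (f t₀ x) h)

section Rep

variable {O : Type} [CommRing O] [IsDomain O] [IsLocalRing O] [IsNoetherianRing O]
  {N : ℕ} [NeZero N] {p : ℕ} {S : Finset ℕ}

/-- The concrete form of the abstract theorem of TOP36. -/
theorem exists_trace_ne_two_hecke (hp : p.Prime) (hpO : (p : O) ∈ maximalIdeal O) (hpS : p ∈ S)
    (hNS : ∀ q : ℕ, q.Prime → q ∣ N → q ∈ S)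
    (ρ : GaloisRepAdic O) (χ : CuspForm.heckeAlgebra N 2 (↑S : Set ℕ) →+* O)
    (hρ : ∀ ℓ : ℕ, ℓ.Prime → ℓ ∉ (↑S : Set ℕ) → ∀ A : ValuationSubring Qbar, A.LiesOverPrime ℓ →
      ∀ σ : GQ, A.IsFrobeniusAt σ ℓ →
        LinearMap.charpoly (ρ.ρ σ) = X ^ 2 - C (χ (heckeT N (↑S : Set ℕ) ℓ)) * X + C ((ℓ : O)))
    (I : Subgroup GQ) (hI : ∀ τ ∈ I, CycEq p τ 1) (P₀ : MvPolynomial ℕ ℤ)
    (hcore : Core36 N p (↑S : Set ℕ) I P₀)
    (hχ : χ (MvPolynomial.aeval (heckeT N (↑S : Set ℕ)) P₀) ≠ 0) :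
    ∃ τ ∈ I, LinearMap.trace O ρ.V (ρ.ρ τ) ≠ 2 := by
  have hbad : ∀ ℓ : ℕ, ℓ.Prime → ℓ ∉ (↑S : Set ℕ) → ¬ ℓ ∣ N * p := by
    intro ℓ hℓ hℓS hd
    rcases (Nat.Prime.dvd_mul hℓ).mp hd with h | h
    · exact hℓS (hNS ℓ hℓ h)
    · rw [(Nat.prime_dvd_prime_iff_eq hℓ hp).mp h] at hℓS
      exact hℓS hpS
  have hbadN : ∀ ℓ : ℕ, ℓ.Prime → ℓ ∉ (↑S : Set ℕ) → ¬ ℓ ∣ N :=
    fun ℓ hℓ hℓS hd => hℓS (hNS ℓ hℓ hd)
  have hU := (SS.es_all N p).1
  have hQ := (SS.es_all N p).2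
  obtain ⟨d, hd⟩ := exists_rank' (N := N) hp
  exact exists_trace_ne_two_T Fermat.Agent.Cheb.preludeSpec hp S hpS
    (J := ptors (JZero N) p) (Tp N p (↑S : Set ℕ)) (Tp_comm (galHecke N) hQ hbad)
    (fun ℓ σ x => Tp_smul (↑S : Set ℕ) ℓ σ x)
    (fun q hq hqS A hA σ hσ x _ =>
      ptors_fix σ x (hU q hq (hbad q hq hqS) A hA σ hσ x.1 x.2))
    (fun ℓ hℓ hℓS A hA σ hσ x _ =>
      Eq.mpr (congrArg (fun T : Module.End ℤ (ptors (JZero N) p) =>
          σ • σ • x - T (σ • x) + ℓ • x = 0) (Tp_of_good hℓ hℓS))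
        (ptors_quad σ (heckeOperatorBar N ⟨ℓ, hℓ⟩).toAddMonoidHom ℓ x
          (hQ ℓ hℓ (hbad ℓ hℓ hℓS) A hA σ hσ x.1 x.2)))
    (fun x _ => by
      obtain ⟨n, hn⟩ := x.2
      obtain ⟨L, hL, h⟩ := openStab N (p ^ n) (pow_ne_zero _ hp.ne_zero) x.1 hn
      exact ⟨L, hL, fun σ hσ => ptors_fix σ x (h σ hσ)⟩)
    (heckeT N (↑S : Set ℕ)) (latAct N (↑S : Set ℕ)) (latAct_injective _)
    (fun k => by
      obtain ⟨κ, hκ, hκT⟩ := Final.sup N (p ^ k) (pow_ne_zero _ hp.ne_zero)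
      exact ⟨Xi κ k rfl, Xi_injective κ k rfl hκ, Tp_Xi κ k rfl hκT hbadN⟩)
    I hI d hd P₀ (fun f hf x _ hx => hcore f hf x hx) hpO χ hχ ρ hρ

end Rep

/-- the trace of an endomorphism with characteristic polynomial `(X - 1) ^ 2` -/
theorem trace_eq_two_of_charpoly {R V : Type*} [CommRing R] [Nontrivial R] [AddCommGroup V]
    [Module R V] [Module.Free R V] [Module.Finite R V] (h : Module.finrank R V = 2)
    (f : Module.End R V) (hf : LinearMap.charpoly f = (X - 1) ^ 2) :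
    LinearMap.trace R V f = 2 := by
  rw [charpoly_eq_of_finrank_two h] at hf
  have := congrArg (fun P : R[X] => P.coeff 1) hf
  have e : ((X : R[X]) - 1) ^ 2 = X ^ 2 - C 2 * X + C 1 := by
    simp only [map_ofNat, map_one]; ring
  rw [e] at this
  simp only [coeff_add, coeff_sub, coeff_X_pow, coeff_C_mul, coeff_X_one, coeff_C] at this
  simpa using this

/-- **S36 from the interface (GEO36).** -/
theorem s36_of_geo36
    (hGeo : ∀ (M₁ q p : ℕ) [NeZero M₁] [NeZero q], q.Prime → p.Prime → q ≠ p → q ∣ M₁ →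
      ¬ q ^ 2 ∣ M₁ → Geo36 M₁ q p)
    {M : ℕ} [NeZero M] {g : CuspForm (CongruenceSubgroup.Gamma0 M) 2} (hg : g.IsNewform)
    (lam : ℕ) [Fact lam.Prime]
    (S : Finset ℕ)
    (O' : Type) [CommRing O'] [IsDomain O'] [IsDiscreteValuationRing O']
    [IsAdicComplete (IsLocalRing.maximalIdeal O') O'] [Finite (IsLocalRing.ResidueField O')]
    [CharZero O'] (hlamO' : (lam : O') ∈ IsLocalRing.maximalIdeal O')
    (chig : CuspForm.heckeAlgebra M 2 (↑S : Set ℕ) →+* ℂ)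
    (hchig : ∀ (ℓ : ℕ) (hℓ : ℓ.Prime) (hℓM : ¬ ℓ ∣ M) (hℓS : ℓ ∉ (↑S : Set ℕ)),
      chig (CuspForm.heckeAlgebra.T hℓ hℓM hℓS) = ModularFormClass.qCoeff g ℓ)
    (iota : chig.range →+* O')
    (hlamS : lam ∈ S) (hMS : ∀ q : ℕ, q.Prime → q ∣ M → q ∈ S) :
    ∃ (O'' : Type) (_ : CommRing O'') (_ : IsDomain O'') (_ : IsDiscreteValuationRing O'')
      (_ : IsAdicComplete (IsLocalRing.maximalIdeal O'') O'') (_ : Finite (IsLocalRing.ResidueField O''))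
      (_ : CharZero O'') (_ : Algebra O' O'') (_ : Module.Finite O' O'') (_ : IsLocalHom (algebraMap O' O'')),
      Function.Injective (algebraMap O' O'') ∧
      ∃ ρ : GaloisRepAdic O'',
        (∀ (ℓ : ℕ) (hℓ : ℓ.Prime) (hℓM : ¬ ℓ ∣ M) (hℓS : ℓ ∉ (↑S : Set ℕ)),
          ∀ A : ValuationSubring (AlgebraicClosure ℚ), A.LiesOverPrime ℓ →
            ∀ σ : AlgebraicClosure ℚ ≃ₐ[ℚ] AlgebraicClosure ℚ, A.IsFrobeniusAt σ ℓ →
              LinearMap.charpoly (ρ.ρ σ) =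
                X ^ 2 - C (algebraMap O' O'' ((iota.comp chig.rangeRestrict) (CuspForm.heckeAlgebra.T hℓ hℓM hℓS))) * X
                  + C ((ℓ : O''))) ∧
        (∀ q : ℕ, q.Prime → q ≠ lam → M.factorization q = 2 → ¬ ρ.IsUnipotentOnInertiaAt q) := by
  have hlam : lam.Prime := Fact.out
  obtain ⟨O'', i1, i2, i3, i4, i5, i6, i7, i8, i9, hinj, ρ, hρ, -⟩ :=
    Final.s30 (fun _ _ _ _ _ _ _ _ _ _ _ _ h1 h2 => Fermat.Agent.RR.rhRel h1 h2) lam M S hlamS hMS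
      O' hlamO' (iota.comp chig.rangeRestrict)
  refine ⟨O'', i1, i2, i3, i4, i5, i6, i7, i8, i9, hinj, ρ, hρ, ?_⟩
  intro q hq hqlam hfac hunip
  set χ : CuspForm.heckeAlgebra M 2 (↑S : Set ℕ) →+* O'' :=
    (algebraMap O' O'').comp (iota.comp chig.rangeRestrict) with hχdef
  have hlamO'' : (lam : O'') ∈ maximalIdeal O'' := by
    have h1 : (lam : O'') = algebraMap O' O'' (lam : O') := (map_natCast _ _).symm
    rw [h1, mem_maximalIdeal, mem_nonunits_iff]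
    intro hu
    exact (mem_maximalIdeal _).mp hlamO' (isUnit_of_map_unit (algebraMap O' O'') _ hu)
  have hρ' : ∀ ℓ : ℕ, ℓ.Prime → ℓ ∉ (↑S : Set ℕ) → ∀ A : ValuationSubring Qbar,
      A.LiesOverPrime ℓ → ∀ σ : GQ, A.IsFrobeniusAt σ ℓ →
        LinearMap.charpoly (ρ.ρ σ) = X ^ 2 - C (χ (heckeT M (↑S : Set ℕ) ℓ)) * X + C ((ℓ : O'')) := by
    intro ℓ hℓ hℓS A hA σ hσ
    have hℓM : ¬ ℓ ∣ M := fun h => hℓS (hMS ℓ hℓ h)
    rw [heckeT_eq hℓ hℓM hℓS]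
    exact hρ ℓ hℓ hℓM hℓS A hA σ hσ
  -- arithmetic of the level
  have hM0 : M ≠ 0 := NeZero.ne M
  have hq2M : q ^ 2 ∣ M := (hq.pow_dvd_iff_le_factorization hM0).2 hfac.ge
  have hq3M : ¬ q ^ 3 ∣ M := fun h => by
    have := (hq.pow_dvd_iff_le_factorization hM0).1 h
    omega
  have hqM : q ∣ M := (dvd_pow_self q two_ne_zero).trans hq2M
  obtain ⟨A, hA⟩ := Fermat.Agent.S54.exists_liesOverPrime hq
  obtain ⟨M₁, rfl⟩ : ∃ M₁, M = M₁ * q := ⟨M / q, (Nat.div_mul_cancel hqM).symm⟩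
  have hM₁0 : M₁ ≠ 0 := fun h0 => NeZero.ne (M₁ * q) (by rw [h0, zero_mul])
  have : NeZero M₁ := ⟨hM₁0⟩
  have : NeZero q := ⟨hq.ne_zero⟩
  have hqM₁ : q ∣ M₁ := by
    rw [pow_two] at hq2M
    exact Nat.dvd_of_mul_dvd_mul_right hq.pos hq2M
  have hq2M₁ : ¬ q ^ 2 ∣ M₁ := fun h => hq3M (by
    rw [pow_succ]; exact Nat.mul_dvd_mul_right h q)
  have hnew : ¬ g.GoodEigensystemOccursAt M₁ :=
    hg.2 M₁ (Dvd.intro _ rfl) (fun h => by
      have h1 : M₁ * 1 = M₁ * q := by rw [mul_one]; exact h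
      exact hq.one_lt.ne (Nat.eq_of_mul_eq_mul_left (Nat.pos_of_ne_zero hM₁0) h1))
  obtain ⟨t₀, ht₀, hχt₀⟩ := SS.exists_oldKiller_away hg.1 hnew S hMS chig hchig
  have hS : ∀ ℓ : ℕ, ℓ.Prime → ℓ ∉ (↑S : Set ℕ) → ¬ ℓ ∣ M₁ * q * lam := by
    intro ℓ hℓ hℓS hd
    rcases (Nat.Prime.dvd_mul hℓ).mp hd with h | h
    · exact hℓS (hMS ℓ hℓ h)
    · rw [(Nat.prime_dvd_prime_iff_eq hℓ hlam).mp h] at hℓS
      exact hℓS hlamS
  obtain ⟨e, he, hgeo⟩ := hGeo M₁ q lam hq hlam hqlam hqM₁ hq2M₁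
  have hcore := core36_of_geo36 hlam e (hgeo A hA) (↑S : Set ℕ) hS t₀ ht₀
  obtain ⟨τ, hτ, htr⟩ := exists_trace_ne_two_hecke hlam hlamO'' hlamS hMS ρ χ hρ'
    (A.inertiaSubgroupIn ℚ) (fun τ hτ => cycEq_of_mem_inertia hlam hq hqlam hA hτ)
    ((e : MvPolynomial ℕ ℤ) * t₀) hcore (by
      rw [map_mul, map_natCast, map_mul, map_natCast]
      refine mul_ne_zero (Nat.cast_ne_zero.2 he) ?_
      intro h0
      apply hχt₀
      have h1 := (injective_iff_map_eq_zero _).1 hinj _ h0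
      have h2 := (injective_iff_map_eq_zero _).1
        (SS.injective_of_integral (SS.isIntegral_of_mem_range chig) iota) _ h1
      exact congrArg Subtype.val h2)
  exact htr (trace_eq_two_of_charpoly ρ.finrank_eq _ (hunip A hA τ hτ))

end Fermat.Agent.S36.Top
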