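import Mathlib

/-!
# S36 / TOP36 : the lemmas [SEP] and [FIN]

* `exists_hom_sep` : homomorphisms `Λ → ℤ/m` separate the points of `Λ / W` when `m Λ ⊆ W`.
* `pow_mem_span_of_forall_hom` : determinant trick for a lattice with a faithful action of a
  commutative ring `𝕋`.
* `eq_zero_of_forall_pow_mem` : Krull intersection.
-/

set_option autoImplicit false

namespace Fermat.Agent.S36.Top

open Module

theorem exists_hom_sep {Λ : Type*} [AddCommGroup Λ] [Module.Free ℤ Λ] [Module.Finite ℤ Λ]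
    {m : ℕ} (hm : m ≠ 0) (W : Submodule ℤ Λ) (hW : ∀ l : Λ, m • l ∈ W) {l : Λ} (hl : l ∉ W) :
    ∃ ψ : Λ →+ ZMod m, (∀ w ∈ W, ψ w = 0) ∧ ψ l ≠ 0 := by
  classical
  obtain ⟨n, snf⟩ := Submodule.smithNormalForm (Module.Free.chooseBasis ℤ Λ) W
  have hm' : (m : ℤ) ≠ 0 := by exact_mod_cast hm
  -- `f` is surjective
  have hsurj : Function.Surjective snf.f := by
    intro i
    by_contra hi
    have h1 := snf.repr_eq_zero_of_notMem_range ⟨m • snf.bM i, hW _⟩ (i := i)
      (fun ⟨j, hj⟩ => hi ⟨j, hj⟩)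
    simp only [map_nsmul, Basis.repr_self, Finsupp.smul_apply, Finsupp.single_eq_same] at h1
    simp at h1
    exact hm h1
  -- coordinates of elements of `W`
  have hcoord : ∀ (w : Λ) (hw : w ∈ W) (j : Fin n),
      snf.bM.repr w (snf.f j) = snf.a j * snf.bN.repr ⟨w, hw⟩ j := by
    intro w hw j
    have := snf.repr_apply_embedding_eq_repr_smul ⟨w, hw⟩ (i := j)
    rw [map_smul, Finsupp.smul_apply, smul_eq_mul] at this
    exact this
  have hdvd : ∀ j, snf.a j ∣ (m : ℤ) := by
    intro j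
    have := hcoord (m • snf.bM (snf.f j)) (hW _) j
    simp only [map_nsmul, Basis.repr_self, Finsupp.smul_apply, Finsupp.single_eq_same] at this
    exact ⟨_, by simpa using this⟩
  obtain ⟨j, hj⟩ : ∃ j, ¬ snf.a j ∣ snf.bM.repr l (snf.f j) := by
    by_contra hcon
    push Not at hcon
    choose d hd using hcon
    apply hl
    have h1 : l = ∑ j, d j • (snf.bN j : Λ) := by
      apply snf.bM.repr.injective
      ext i
      obtain ⟨j, rfl⟩ := hsurj i
      rw [map_sum, Finsupp.finsetSum_apply, Finset.sum_eq_single j]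
      · rw [snf.snf, map_smul, map_smul, Basis.repr_self, Finsupp.smul_apply, Finsupp.smul_apply,
          Finsupp.single_eq_same, hd j]
        simp [mul_comm]
      · intro j' _ hj'
        rw [snf.snf, map_smul, map_smul, Basis.repr_self, Finsupp.smul_apply, Finsupp.smul_apply,
          Finsupp.single_eq_of_ne (fun h => hj' (snf.f.injective h).symm)]
        simp
      · intro h; exact absurd (Finset.mem_univ j) h
    rw [h1]
    exact Submodule.sum_mem _ fun j _ => Submodule.smul_mem _ _ (snf.bN j).2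
  obtain ⟨e, he⟩ := hdvd j
  have he0 : e ≠ 0 := by
    rintro rfl
    exact hm' (by simpa using he)
  let ψ : Λ →+ ZMod m :=
    (Int.castAddHom (ZMod m)).comp
      ((e • (snf.bM.coord (snf.f j))).toAddMonoidHom)
  have hψ : ∀ x, ψ x = ((e * snf.bM.repr x (snf.f j) : ℤ) : ZMod m) := fun x => rfl
  refine ⟨ψ, fun w hw => ?_, fun h => hj ?_⟩
  · rw [hψ, hcoord w hw j, ← mul_assoc, mul_comm e, ← he, Int.cast_mul]
    simp
  · rw [hψ, ZMod.intCast_zmod_eq_zero_iff_dvd, he, mul_comm] at h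
    exact (mul_dvd_mul_iff_left he0).1 h

section Det

variable {𝕋 Λ : Type*} [CommRing 𝕋] [AddCommGroup Λ] [Module.Free ℤ Λ] [Module.Finite ℤ Λ]

/-- **determinant trick.**  There is `r` (depending only on `lat`) such that: if every
`ψ : Λ → ℤ/m` killing `B Λ` kills `a Λ`, then `a ^ r` lies in the ideal generated by `B` and `m`. -/
theorem exists_pow_mem_span_of_forall_hom (lat : 𝕋 →+* Module.End ℤ Λ)
    (hlat : Function.Injective lat) :
    ∃ r : ℕ, ∀ (B : Set 𝕋) (m : ℕ), m ≠ 0 → ∀ a : 𝕋,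
      (∀ ψ : Λ →+ ZMod m, (∀ b ∈ B, ∀ l, ψ (lat b l) = 0) → ∀ l, ψ (lat a l) = 0) →
      a ^ r ∈ Ideal.span (B ∪ {(m : 𝕋)}) := by
  classical
  let _ : Module 𝕋 Λ := Module.compHom Λ lat
  have hsmul : ∀ (t : 𝕋) (l : Λ), t • l = lat t l := fun _ _ => rfl
  have hnat : ∀ (c : ℤ) (l : Λ), (c : 𝕋) • l = c • l := fun c l => by
    rw [hsmul, map_intCast, Module.End.intCast_apply]
  have : Module.Finite 𝕋 Λ := by
    obtain ⟨s, hs⟩ := (Module.Finite.fg_top : (⊤ : Submodule ℤ Λ).FG)
    refine ⟨⟨s, ?_⟩⟩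
    rw [eq_top_iff]
    intro l _
    have hl : l ∈ Submodule.span ℤ (s : Set Λ) := by rw [hs]; trivial
    induction hl using Submodule.span_induction with
    | mem x hx => exact Submodule.subset_span hx
    | zero => exact Submodule.zero_mem _
    | add x y _ _ hx hy => exact Submodule.add_mem _ (hx trivial) (hy trivial)
    | smul c x _ hx =>
      rw [← hnat]
      exact Submodule.smul_mem _ _ (hx trivial)
  refine ⟨(⊤ : Submodule 𝕋 Λ).spanFinrank, fun B m hm a h => ?_⟩
  set I : Ideal 𝕋 := Ideal.span (B ∪ {(m : 𝕋)}) with hI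
  let W : Submodule ℤ Λ := AddSubgroup.toIntSubmodule (I • (⊤ : Submodule 𝕋 Λ)).toAddSubgroup
  have hWmem : ∀ l, l ∈ W ↔ l ∈ I • (⊤ : Submodule 𝕋 Λ) := fun l => Iff.rfl
  have hrange : ∀ l, lat a l ∈ I • (⊤ : Submodule 𝕋 Λ) := by
    intro l
    by_contra hl
    obtain ⟨ψ, hψW, hψl⟩ := exists_hom_sep hm W (fun l => by
      rw [hWmem]
      have : m • l = (m : 𝕋) • l := by
        have := hnat (m : ℤ) l
        rw [Int.cast_natCast, natCast_zsmul] at this
        exact this.symm
      rw [this]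
      exact Submodule.smul_mem_smul (Ideal.subset_span (Or.inr rfl)) trivial)
      (l := lat a l) (fun h' => hl ((hWmem _).1 h'))
    refine hψl (h ψ (fun b hb l' => hψW _ ?_) l)
    rw [hWmem, ← hsmul]
    exact Submodule.smul_mem_smul (Ideal.subset_span (Or.inl hb)) trivial
  obtain ⟨P, hmonic, hdeg, hcoeff, haeval⟩ :=
    LinearMap.exists_monic_and_natDegree_eq_and_coeff_mem_pow_and_aeval_eq_zero 𝕋
      (algebraMap 𝕋 (Module.End 𝕋 Λ) a) I (by
        rintro _ ⟨l, rfl⟩
        exact hrange l)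
  rw [Polynomial.aeval_algebraMap_apply] at haeval
  have h0 : Polynomial.eval a P = 0 := by
    apply hlat
    rw [map_zero]
    refine LinearMap.ext fun l => ?_
    have := congrArg (fun f : Module.End 𝕋 Λ => f l) haeval
    simpa [Polynomial.aeval_def, Polynomial.eval₂_eq_eval_map, hsmul] using this
  rw [Polynomial.eval_eq_sum_range, Finset.sum_range_succ, hmonic.coeff_natDegree, one_mul,
    hdeg] at h0
  rw [← hdeg] at h0 ⊢
  have h1 : a ^ P.natDegree = - ∑ k ∈ Finset.range P.natDegree, P.coeff k * a ^ k :=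
    eq_neg_of_add_eq_zero_right h0
  rw [h1]
  refine I.neg_mem (I.sum_mem fun k hk => I.mul_mem_right _ ?_)
  have hk' : P.natDegree - k ≠ 0 := by
    have := Finset.mem_range.1 hk
    omega
  exact Ideal.pow_le_self hk' (hcoeff k)

end Det

theorem eq_zero_of_forall_pow_mem {O : Type*} [CommRing O] [IsDomain O] [IsNoetherianRing O]
    [IsLocalRing O] {π x : O} (hπ : π ∈ IsLocalRing.maximalIdeal O) (e : ℕ)
    (h : ∀ n : ℕ, x ^ e ∈ Ideal.span {π ^ n}) : x = 0 := by
  have h1 : Ideal.span {π} ≠ ⊤ := by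
    intro htop
    rw [Ideal.span_singleton_eq_top] at htop
    exact (IsLocalRing.mem_maximalIdeal _).1 hπ htop
  have h2 := Ideal.iInf_pow_eq_bot_of_isLocalRing (Ideal.span {π}) h1
  have h3 : x ^ e ∈ (⨅ i : ℕ, Ideal.span {π} ^ i) := by
    rw [Ideal.mem_iInf]
    intro i
    rw [Ideal.span_singleton_pow]
    exact h i
  rw [h2, Ideal.mem_bot] at h3
  exact pow_eq_zero_iff (n := e) (by
    rintro rfl
    simp at h3) |>.1 h3

end Fermat.Agent.S36.Top
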