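import Mathlib

/-!
# S36 / TOP36 : the lemma [NIL]

A group `I` acts on an abelian group `Y` which embeds into `(ℤ/m)^d`, and `(τ - 1)^2 = 0` on `Y`
for **every** `τ ∈ I`.  If an endomorphism `P` commutes with `I` and kills the `I`-invariants,
then `P ^ (2 ^ (d * d))` kills `Y`.  (No commutativity of the image of `I` is assumed.)
-/

set_option autoImplicit false

namespace Fermat.Agent.S36.Top

section Ring

variable {E : Type*} [Ring E]

theorem nil_aba {a b h' : E} (ha : a * a = 0) (hb : b * b = 0)
    (hab : (a * b + a + b) * (a * b + a + b) = 0) (hinv : (b + 1) * h' = 1) : a * b * a = 0 := by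
  have h1 : a * b * a * (b + 1) = a * ((a * b + a + b) * (a * b + a + b))
      - (a * a) * (b * a * b + b * a + b * b + a * b + a + b) - a * (b * b) := by noncomm_ring
  rw [hab, ha, hb] at h1
  simp only [mul_zero, zero_mul, sub_zero] at h1
  calc a * b * a = a * b * a * ((b + 1) * h') := by rw [hinv, mul_one]
    _ = (a * b * a * (b + 1)) * h' := by rw [mul_assoc (a * b * a)]
    _ = 0 := by rw [h1, zero_mul]

theorem nil_bab {a b g' : E} (ha : a * a = 0) (hb : b * b = 0)
    (hab : (a * b + a + b) * (a * b + a + b) = 0) (hinv : g' * (a + 1) = 1) : b * a * b = 0 := by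
  have h1 : (a + 1) * (b * a * b) = ((a * b + a + b) * (a * b + a + b)) * b
      - (a * b * a + a + b * a + b) * (b * b) - a * (b * b) * b - (a * a) * (b * b + b) := by
    noncomm_ring
  rw [hab, ha, hb] at h1
  simp only [mul_zero, zero_mul, sub_zero] at h1
  calc b * a * b = (g' * (a + 1)) * (b * a * b) := by rw [hinv, one_mul]
    _ = g' * ((a + 1) * (b * a * b)) := by rw [mul_assoc]
    _ = 0 := by rw [h1, mul_zero]

theorem nil_anti {a b g' h' : E} (ha : a * a = 0) (hb : b * b = 0)
    (hab : (a * b + a + b) * (a * b + a + b) = 0) (hg : g' * (a + 1) = 1)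
    (hh : (b + 1) * h' = 1) : a * b + b * a = 0 := by
  have h1 := nil_aba ha hb hab hh
  have h2 := nil_bab ha hb hab hg
  have h3 : a * b + b * a = (a * b + a + b) * (a * b + a + b) - a * (b * a * b) - a * b * a
      - b * a * b - a * (b * b) - (a * a) * b - a * a - b * b := by noncomm_ring
  rw [h3, hab, h1, h2, ha, hb]
  simp

variable {I : Type*} [Group I] (ρ : I →* E)

theorem nil_anticomm (hsq : ∀ τ, (ρ τ - 1) * (ρ τ - 1) = 0) (τ τ' : I) :
    (ρ τ - 1) * (ρ τ' - 1) + (ρ τ' - 1) * (ρ τ - 1) = 0 := by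
  refine nil_anti (g' := ρ τ⁻¹) (h' := ρ τ'⁻¹) (hsq τ) (hsq τ') ?_ ?_ ?_
  · have : (ρ τ - 1) * (ρ τ' - 1) + (ρ τ - 1) + (ρ τ' - 1) = ρ (τ * τ') - 1 := by
      rw [map_mul]; noncomm_ring
    rw [this]
    exact hsq _
  · rw [sub_add_cancel, ← map_mul, inv_mul_cancel, map_one]
  · rw [sub_add_cancel, ← map_mul, mul_inv_cancel, map_one]

/-- the `ℤ`-span of the `ρ τ - 1` -/
def augSpan : Submodule ℤ E := Submodule.span ℤ (Set.range fun τ => ρ τ - 1)

theorem augSpan_anticomm (hsq : ∀ τ, (ρ τ - 1) * (ρ τ - 1) = 0) {x y : E}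
    (hx : x ∈ augSpan ρ) (hy : y ∈ augSpan ρ) : x * y + y * x = 0 := by
  induction hx using Submodule.span_induction with
  | mem x hx =>
    obtain ⟨τ, rfl⟩ := hx
    induction hy using Submodule.span_induction with
    | mem y hy =>
      obtain ⟨τ', rfl⟩ := hy
      exact nil_anticomm ρ hsq τ τ'
    | zero => simp
    | add y y' _ _ h h' =>
      rw [mul_add, add_mul, add_add_add_comm, h, h', add_zero]
    | smul c y _ h =>
      rw [mul_smul_comm, smul_mul_assoc, ← smul_add, h, smul_zero]
  | zero => simp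
  | add x x' _ _ h h' =>
    rw [mul_add, add_mul, add_add_add_comm, h, h', add_zero]
  | smul c x _ h =>
    rw [mul_smul_comm, smul_mul_assoc, ← smul_add, h, smul_zero]

theorem augSpan_sq (hsq : ∀ τ, (ρ τ - 1) * (ρ τ - 1) = 0) {x : E}
    (hx : x ∈ augSpan ρ) : x * x = 0 := by
  induction hx using Submodule.span_induction with
  | mem x hx =>
    obtain ⟨τ, rfl⟩ := hx
    exact hsq τ
  | zero => simp
  | add x y hx hy h h' =>
    have := augSpan_anticomm ρ hsq hx hy
    have e : (x + y) * (x + y) = x * x + y * y + (x * y + y * x) := by noncomm_ring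
    rw [e, h, h', this]
    simp
  | smul c x _ h =>
    rw [mul_smul_comm, smul_mul_assoc, h, smul_zero, smul_zero]

end Ring

section Ind

variable {Y : Type*} [AddCommGroup Y]

theorem pow_apply_eq_zero_of_finset (P : Module.End ℤ Y) (s : Finset (Module.End ℤ Y)) :
    (∀ b ∈ s, b * b = 0) → (∀ b ∈ s, ∀ b' ∈ s, b * b' + b' * b = 0) →
    (∀ b ∈ s, P * b = b * P) →
    ∀ W : Submodule ℤ Y, (∀ b ∈ s, ∀ y ∈ W, b y ∈ W) → (∀ y ∈ W, P y ∈ W) →
    (∀ y ∈ W, (∀ b ∈ s, b y = 0) → P y = 0) →
    ∀ y ∈ W, (P ^ 2 ^ s.card) y = 0 := by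
  classical
  induction s using Finset.induction_on with
  | empty =>
    intro _ _ _ W _ _ hkill y hy
    simpa using hkill y hy (by simp)
  | insert b s hbs ih =>
    intro hsq hanti hP W hW hPW hkill y hy
    have hb : b ∈ insert b s := Finset.mem_insert_self b s
    have hs : ∀ c ∈ s, c ∈ insert b s := fun c hc => Finset.mem_insert_of_mem hc
    set e := 2 ^ s.card with he
    have hPb : ∀ z, P (b z) = b (P z) := fun z => by
      have := congrArg (fun f : Module.End ℤ Y => f z) (hP b hb)
      simpa using this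
    have hPbe : ∀ (n : ℕ) z, (P ^ n) (b z) = b ((P ^ n) z) := by
      intro n
      induction n with
      | zero => intro z; simp
      | succ n ihn =>
        intro z
        rw [pow_succ, Module.End.mul_apply, Module.End.mul_apply, hPb, ihn]
    have hPWe : ∀ (n : ℕ), ∀ z ∈ W, (P ^ n) z ∈ W := by
      intro n
      induction n with
      | zero => intro z hz; simpa using hz
      | succ n ihn =>
        intro z hz
        rw [pow_succ, Module.End.mul_apply]
        exact ihn _ (hPW z hz)
    have key : ∀ z ∈ W ⊓ LinearMap.ker b, (P ^ e) z = 0 := by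
      refine ih (fun c hc => hsq c (hs c hc)) (fun c hc c' hc' => hanti c (hs c hc) c' (hs c' hc'))
        (fun c hc => hP c (hs c hc)) (W ⊓ LinearMap.ker b) ?_ ?_ ?_
      · intro c hc z hz
        refine Submodule.mem_inf.2 ⟨hW c (hs c hc) z hz.1, LinearMap.mem_ker.2 ?_⟩
        have h1 := congrArg (fun f : Module.End ℤ Y => f z) (hanti b hb c (hs c hc))
        simp only [LinearMap.add_apply, Module.End.mul_apply, LinearMap.zero_apply] at h1
        rw [LinearMap.mem_ker.1 hz.2, map_zero, add_zero] at h1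
        exact h1
      · intro z hz
        refine Submodule.mem_inf.2 ⟨hPW z hz.1, LinearMap.mem_ker.2 ?_⟩
        rw [← hPb, LinearMap.mem_ker.1 hz.2, map_zero]
      · intro z hz hzs
        refine hkill z hz.1 fun c hc => ?_
        rcases Finset.mem_insert.1 hc with rfl | hc
        · exact LinearMap.mem_ker.1 hz.2
        · exact hzs c hc
    have h1 : b y ∈ W ⊓ LinearMap.ker b := by
      refine Submodule.mem_inf.2 ⟨hW b hb y hy, LinearMap.mem_ker.2 ?_⟩
      have := congrArg (fun f : Module.End ℤ Y => f y) (hsq b hb)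
      simpa using this
    have h2 : (P ^ e) y ∈ W ⊓ LinearMap.ker b := by
      refine Submodule.mem_inf.2 ⟨hPWe e y hy, LinearMap.mem_ker.2 ?_⟩
      rw [← hPbe, key _ h1]
    have h3 : 2 ^ (insert b s).card = e + e := by
      rw [Finset.card_insert_of_notMem hbs, pow_succ, he]; ring
    rw [h3, pow_add, Module.End.mul_apply]
    exact key _ h2

end Ind

section Gen

/-- a group embedded in `(ℤ/m)^κ` is generated by at most `#κ` elements -/
theorem exists_finset_span_of_injective {Z κ : Type*} [AddCommGroup Z] [Fintype κ] {m : ℕ}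
    (ι : Z →+ (κ → ZMod m)) (hι : Function.Injective ι) :
    ∃ s : Finset Z, s.card ≤ Fintype.card κ ∧ Submodule.span ℤ (s : Set Z) = ⊤ := by
  classical
  let π : (κ → ℤ) →ₗ[ℤ] (κ → ZMod m) :=
    LinearMap.pi fun i => (Int.castAddHom (ZMod m)).toIntLinearMap.comp (LinearMap.proj i)
  have hπ : ∀ h i, π h i = ((h i : ℤ) : ZMod m) := fun h i => rfl
  have hπs : Function.Surjective π := by
    intro v
    refine ⟨fun i => ((v i).cast : ℤ), funext fun i => ?_⟩
    rw [hπ]
    exact ZMod.intCast_zmod_cast (v i)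
  let H : Submodule ℤ (κ → ℤ) := (LinearMap.range ι.toIntLinearMap).comap π
  obtain ⟨n, ⟨b⟩⟩ := Submodule.nonempty_basis_of_pid (Pi.basisFun ℤ κ) H
  have hn : n ≤ Fintype.card κ := by
    have h1 : LinearIndependent ℤ (fun i => (b i : κ → ℤ)) :=
      b.linearIndependent.map' H.subtype (Submodule.ker_subtype H)
    have := h1.fintype_card_le_finrank
    simpa using this
  have hb : ∀ i, ∃ z : Z, ι z = π (b i : κ → ℤ) := fun i => by
    obtain ⟨z, hz⟩ := (b i).2
    exact ⟨z, hz⟩
  choose z hz using hb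
  refine ⟨Finset.univ.image z, (Finset.card_image_le).trans (by simpa using hn), ?_⟩
  rw [eq_top_iff]
  intro w _
  obtain ⟨h, hh⟩ := hπs (ι w)
  have hH : h ∈ H := ⟨w, hh.symm⟩
  have h1 : w = ∑ i, b.repr ⟨h, hH⟩ i • z i := by
    apply hι
    rw [map_sum, ← hh]
    have h2 : h = ∑ i, b.repr ⟨h, hH⟩ i • (b i : κ → ℤ) := by
      have h3 := congrArg H.subtype (b.sum_repr ⟨h, hH⟩)
      rw [map_sum] at h3
      simp only [map_smul, Submodule.subtype_apply] at h3
      exact h3.symm
    conv_lhs => rw [h2]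
    rw [map_sum]
    refine Finset.sum_congr rfl fun i _ => ?_
    rw [map_smul, map_zsmul, hz]
  rw [h1]
  refine Submodule.sum_mem _ fun i _ => Submodule.smul_mem _ _ (Submodule.subset_span ?_)
  simp

end Gen

section Main

variable {Y I : Type*} [AddCommGroup Y] [Group I] [DistribMulAction I Y]

/-- **[NIL]** -/
theorem pow_kills_of_sq_zero
    (hsq : ∀ (τ : I) (y : Y), τ • τ • y - 2 • τ • y + y = 0)
    (P : Module.End ℤ Y) (hP : ∀ (τ : I) (y : Y), P (τ • y) = τ • P y)
    (hinv : ∀ y : Y, (∀ τ : I, τ • y = y) → P y = 0)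
    {m d : ℕ} (ι : Y →+ (Fin d → ZMod m)) (hι : Function.Injective ι) (y : Y) :
    (P ^ 2 ^ (d * d)) y = 0 := by
  classical
  let ρ : I →* Module.End ℤ Y := DistribMulAction.toModuleEnd ℤ Y
  have hρ : ∀ τ y, ρ τ y = τ • y := fun τ y => rfl
  have hsq' : ∀ τ, (ρ τ - 1) * (ρ τ - 1) = 0 := by
    intro τ
    refine LinearMap.ext fun y => ?_
    simp only [Module.End.mul_apply, LinearMap.sub_apply, Module.End.one_apply, hρ,
      LinearMap.zero_apply, smul_sub]
    rw [← hsq τ y, two_smul]
    abel
  obtain ⟨sY, hsYc, hsY⟩ := exists_finset_span_of_injective ι hι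
  -- embed the augmentation span
  let j : augSpan ρ →+ ((sY × Fin d) → ZMod m) :=
    { toFun := fun x u => ι ((x : Module.End ℤ Y) (u.1 : Y)) u.2
      map_zero' := by ext u; simp
      map_add' := fun x x' => by ext u; simp }
  have hj : Function.Injective j := by
    intro x x' h
    apply Subtype.ext
    refine LinearMap.ext_on hsY fun v hv => ?_
    apply hι
    funext i
    exact congrFun h (⟨v, hv⟩, i)
  obtain ⟨t, htc, ht⟩ := exists_finset_span_of_injective j hj
  set s : Finset (Module.End ℤ Y) := t.image Subtype.val with hs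
  have hsmem : ∀ b ∈ s, b ∈ augSpan ρ := by
    intro b hb
    obtain ⟨x, _, rfl⟩ := Finset.mem_image.1 hb
    exact x.2
  have hspan : ∀ x ∈ augSpan ρ, x ∈ Submodule.span ℤ (s : Set (Module.End ℤ Y)) := by
    intro x hx
    have h1 : (⟨x, hx⟩ : augSpan ρ) ∈ Submodule.span ℤ (t : Set (augSpan ρ)) := by
      rw [ht]; trivial
    have h2 := Submodule.mem_map_of_mem (f := (augSpan ρ).subtype) h1
    rw [Submodule.map_span] at h2
    simpa [hs] using h2
  have hcard : s.card ≤ d * d := by
    refine (Finset.card_image_le).trans (htc.trans ?_)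
    rw [Fintype.card_prod, Fintype.card_coe, Fintype.card_fin]
    have : sY.card ≤ d := by simpa using hsYc
    exact Nat.mul_le_mul_right d this
  have hPρ : ∀ x ∈ augSpan ρ, P * x = x * P := by
    intro x hx
    induction hx using Submodule.span_induction with
    | mem x hx =>
      obtain ⟨τ, rfl⟩ := hx
      refine LinearMap.ext fun y => ?_
      simp only [Module.End.mul_apply, LinearMap.sub_apply, Module.End.one_apply, hρ, map_sub, hP]
    | zero => simp
    | add x x' _ _ h h' => rw [mul_add, add_mul, h, h']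
    | smul c x _ h => rw [mul_smul_comm, smul_mul_assoc, h]
  have main := pow_apply_eq_zero_of_finset P s (fun b hb => augSpan_sq ρ hsq' (hsmem b hb))
    (fun b hb b' hb' => augSpan_anticomm ρ hsq' (hsmem b hb) (hsmem b' hb'))
    (fun b hb => hPρ b (hsmem b hb)) ⊤ (fun _ _ _ _ => trivial) (fun _ _ => trivial)
    (fun y _ hy => by
      apply hinv
      intro τ
      have h1 : (ρ τ - 1) ∈ Submodule.span ℤ (s : Set (Module.End ℤ Y)) :=
        hspan _ (Submodule.subset_span ⟨τ, rfl⟩)
      have h2 : ∀ x ∈ Submodule.span ℤ (s : Set (Module.End ℤ Y)), x y = 0 := by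
        intro x hx
        induction hx using Submodule.span_induction with
        | mem x hx => exact hy x hx
        | zero => simp
        | add x x' _ _ h h' => rw [LinearMap.add_apply, h, h', add_zero]
        | smul c x _ h => rw [LinearMap.smul_apply, h, smul_zero]
      have h3 := h2 _ h1
      rw [LinearMap.sub_apply, Module.End.one_apply, hρ, sub_eq_zero] at h3
      exact h3) y trivial
  obtain ⟨c, hc⟩ := Nat.exists_eq_add_of_le (Nat.pow_le_pow_right (n := 2) (by norm_num) hcard)
  rw [hc, add_comm, pow_add, Module.End.mul_apply, main, map_zero]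

end Main

end Fermat.Agent.S36.Top
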