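import Fermat.Agent.S36.Top.CoreX
import Fermat.Agent.S36.Top.Nil
import Fermat.Agent.S36.Top.Fin
import Fermat.Agent.GAL.PC.GlueAbsRaw
import Fermat.Agent.GAL.PC.S31Wire

/-!
# S36 / TOP36 : the abstract theorem

Setting of `Fermat.Agent.GAL.PC.core_raw` (a Galois module `J` with Hecke action, Eichler-Shimura
relation, a lattice `Λ` with `Hom(Λ, ℤ/p^k) ↪ J` equivariantly).  Let `I` be a subgroup of `G_ℚ`
acting trivially on the `p`-power roots of unity.  If a Hecke operator `P₀` kills all `I`-fixed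
`p`-power torsion points, the `p ^ k`-torsion of `J` has bounded rank, and `χ (P₀) ≠ 0` for a
character `χ` of the Hecke algebra with attached representation `ρ`, then `tr ρ(τ) ≠ 2` for some
`τ ∈ I`.
-/

set_option autoImplicit false

namespace Fermat.Agent.S36.Top

open Fermat.Agent.GAL Fermat.Agent.GAL.PC Polynomial IsLocalRing

local notation "Qbar" => AlgebraicClosure ℚ
local notation "GQ" => (AlgebraicClosure ℚ ≃ₐ[ℚ] AlgebraicClosure ℚ)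

theorem eq_zero_of_forall_pow_mem_max {O : Type*} [CommRing O] [IsDomain O] [IsNoetherianRing O]
    [IsLocalRing O] {x : O} (e : ℕ) (h : ∀ n : ℕ, x ^ e ∈ maximalIdeal O ^ n) : x = 0 := by
  have h2 := Ideal.iInf_pow_eq_bot_of_isLocalRing (maximalIdeal O)
    (Ideal.IsPrime.ne_top inferInstance)
  have h3 : x ^ e ∈ (⨅ i : ℕ, maximalIdeal O ^ i) := by
    rw [Ideal.mem_iInf]
    exact h
  rw [h2, Ideal.mem_bot] at h3
  exact pow_eq_zero_iff (n := e) (by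
    rintro rfl
    simp at h3) |>.1 h3

/-- **The abstract form of TOP36** (module form). -/
theorem exists_trace_ne_two (hC : Fermat.Agent.Cheb.PreludeSpec) {p : ℕ} (hp : p.Prime)
    (S : Finset ℕ) (hpS : p ∈ S)
    {𝓗 𝕋 J Λ : Type*} [CommRing 𝓗] [CommRing 𝕋] [AddCommGroup J] [Module 𝓗 J]
    [DistribMulAction GQ J] [SMulCommClass GQ 𝓗 J] (gen : ℕ → 𝓗) (ev : 𝓗 →+* 𝕋)
    (hUnr : ∀ q : ℕ, q.Prime → q ∉ (↑S : Set ℕ) → ∀ A : ValuationSubring Qbar,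
      A.LiesOverPrime q →
      ∀ σ ∈ A.inertiaSubgroupIn ℚ, ∀ x : J, (∃ n : ℕ, p ^ n • x = 0) → σ • x = x)
    (hFrob : ∀ ℓ : ℕ, ℓ.Prime → ℓ ∉ S → ∀ A : ValuationSubring Qbar, A.LiesOverPrime ℓ →
      ∀ σ : GQ, A.IsFrobeniusAt σ ℓ → ∀ x : J, (∃ n : ℕ, p ^ n • x = 0) →
        σ • σ • x - gen ℓ • (σ • x) + ℓ • x = 0)
    (hStab : ∀ x : J, (∃ n : ℕ, p ^ n • x = 0) →
      ∃ L : IntermediateField ℚ Qbar, FiniteDimensional ℚ L ∧
      ∀ σ : GQ, (∀ y ∈ L, σ y = y) → σ • x = x)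
    [AddCommGroup Λ] [Module.Free ℤ Λ] [Module.Finite ℤ Λ]
    (lat : 𝕋 →+* Module.End ℤ Λ) (hlat : Function.Injective lat)
    (hSUP : ∀ k : ℕ, ∃ Ξ : (Λ →+ ZMod (p ^ k)) →+ J, Function.Injective Ξ ∧
      ∀ (h : 𝓗) (ψ : Λ →+ ZMod (p ^ k)), h • Ξ ψ = Ξ (ψ.comp (lat (ev h)).toAddMonoidHom))
    (I : Subgroup GQ) (hI : ∀ τ ∈ I, CycEq p τ 1)
    (d : ℕ) (hRank : ∀ k : ℕ, ∃ ι : J → (Fin d → ZMod (p ^ k)),
      (∀ x y, p ^ k • x = 0 → p ^ k • y = 0 → ι (x + y) = ι x + ι y) ∧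
      ∀ x, p ^ k • x = 0 → ι x = 0 → x = 0)
    (P₀ : 𝓗) (hP₀ : ∀ x : J, (∃ n : ℕ, p ^ n • x = 0) → (∀ τ ∈ I, τ • x = x) → P₀ • x = 0)
    {O : Type} [CommRing O] [IsDomain O] [IsLocalRing O] [IsNoetherianRing O]
    (hpO : (p : O) ∈ maximalIdeal O)
    (χ : 𝕋 →+* O) (hχ : χ (ev P₀) ≠ 0)
    (ρ : GaloisRepAdic O)
    (hρ : ∀ ℓ : ℕ, ℓ.Prime → ℓ ∉ (↑S : Set ℕ) → ∀ A : ValuationSubring Qbar,
      A.LiesOverPrime ℓ → ∀ σ : GQ, A.IsFrobeniusAt σ ℓ →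
        LinearMap.charpoly (ρ.ρ σ) = X ^ 2 - C (χ (ev (gen ℓ))) * X + C ((ℓ : O))) :
    ∃ τ ∈ I, LinearMap.trace O ρ.V (ρ.ρ τ) ≠ 2 := by
  classical
  by_contra hall
  push Not at hall
  obtain ⟨r, hr⟩ := exists_pow_mem_span_of_forall_hom lat hlat
  obtain ⟨k₀, hk₀⟩ := lattice_lemma lat.range p hp
  apply hχ
  refine eq_zero_of_forall_pow_mem_max (2 ^ (d * d) * r) fun n => ?_
  -- level `n`
  have hne : NeZero (p ^ (n + k₀)) := ⟨pow_ne_zero _ hp.ne_zero⟩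
  obtain ⟨Ξ, hΞ, hΞT⟩ := hSUP (n + k₀)
  have hfin := finite_addHom_zmod (Λ := Λ) (p ^ (n + k₀))
  obtain ⟨t, c, hpc, -, M, P, hXM, ⟨k, hMk⟩, hMG, hMH, htP, hspec⟩ :=
    core_X hC hp S (↑S) hpS subset_rfl gen ev hUnr hFrob hStab n (Set.range Ξ)
      (Set.finite_range Ξ)
      (by
        rintro _ ⟨ψ, rfl⟩
        refine ⟨n + k₀, ?_⟩
        rw [← map_nsmul]
        have : p ^ (n + k₀) • ψ = 0 := by
          refine AddMonoidHom.ext fun l => ?_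
          rw [AddMonoidHom.nsmul_apply, nsmul_eq_mul, ZMod.natCast_self, zero_mul,
            AddMonoidHom.zero_apply]
        rw [this, map_zero])
      (by
        intro Q hQ
        have h1 : ∀ l : Λ, ∃ y : Λ, lat (ev Q) l = p ^ (n + k₀) • y := by
          intro l
          refine exists_nsmul_of_forall_hom _ _ fun ψ => ?_
          have h2 := hQ _ ⟨ψ, rfl⟩
          rw [hΞT, ← map_zero Ξ] at h2
          exact DFunLike.congr_fun (hΞ h2) l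
        obtain ⟨Q₁, ⟨Q', rfl⟩, hQ₁⟩ := hk₀ n (lat (ev Q)) ⟨_, rfl⟩ h1
        have h2 : ev Q = (p : 𝕋) ^ n * Q' := by
          apply hlat
          rw [hQ₁, map_mul, map_pow, map_natCast, nsmul_eq_mul, Nat.cast_pow]
        rw [h2]
        exact Ideal.mul_mem_right _ _ (Ideal.mem_span_singleton_self _))
  -- traces
  have htr : ∀ τ ∈ I, χ (ev (P τ) - 2) ∈ maximalIdeal O ^ n := by
    intro τ hτ
    have h1 := hpc.toIsPrePC.map (quotMap χ (maximalIdeal O) p hpO n)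
    have h2 := isPrePC_of_rep ρ (↑S : Set ℕ) (fun ℓ => χ (ev (gen ℓ))) hρ n
    have h3 := congrFun (IsPrePC.unique hC h2 h1) τ
    rw [hall τ hτ, htP τ, quotMap_mk] at h3
    rw [map_sub, map_ofNat]
    exact Ideal.Quotient.eq.mp h3.symm
  -- the module `Y`
  let Y : AddSubgroup J :=
    { carrier := {y | y ∈ M ∧ ∀ τ ∈ I, (P τ - 2) • y = 0}
      zero_mem' := ⟨M.zero_mem, fun τ _ => smul_zero _⟩
      add_mem' := fun {a b} ha hb => ⟨M.add_mem ha.1 hb.1, fun τ hτ => by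
        rw [smul_add, ha.2 τ hτ, hb.2 τ hτ, add_zero]⟩
      neg_mem' := fun {a} ha => ⟨M.neg_mem ha.1, fun τ hτ => by
        rw [smul_neg, ha.2 τ hτ, neg_zero]⟩ }
  have hYG : ∀ (σ : GQ), ∀ y ∈ Y, σ • y ∈ Y := fun σ y hy =>
    ⟨hMG σ y hy.1, fun τ hτ => by rw [← smul_comm σ, hy.2 τ hτ, smul_zero]⟩
  have hYH : ∀ (h : 𝓗), ∀ y ∈ Y, h • y ∈ Y := fun h y hy =>
    ⟨hMH h y hy.1, fun τ hτ => by rw [smul_comm, hy.2 τ hτ, smul_zero]⟩
  have hYsq : ∀ τ ∈ I, ∀ y ∈ Y, τ • τ • y - 2 • τ • y + y = 0 := by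
    intro τ hτ y hy
    have h1 := hspec τ 1 (hI τ hτ) (τ • y) (hMG τ y hy.1)
    rw [one_smul, inv_smul_smul] at h1
    have h2 := (hYG τ y hy).2 τ hτ
    rw [sub_smul, sub_eq_zero] at h2
    rw [h2, two_smul] at h1
    have h3 : τ • τ • y - 2 • τ • y + y = (τ • τ • y + y) - (τ • y + τ • y) := by
      rw [two_nsmul]; abel
    rw [h3, h1, sub_self]
  let _ : DistribMulAction I Y :=
    { smul := fun τ y => ⟨(τ : GQ) • y.1, hYG τ y.1 y.2⟩
      one_smul := fun y => Subtype.ext (one_smul GQ y.1)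
      mul_smul := fun σ τ y => Subtype.ext (mul_smul (σ : GQ) (τ : GQ) y.1)
      smul_zero := fun τ => Subtype.ext (smul_zero (τ : GQ))
      smul_add := fun τ x y => Subtype.ext (smul_add (τ : GQ) x.1 y.1) }
  let Pe : Module.End ℤ Y := AddMonoidHom.toIntLinearMap
    { toFun := fun y => ⟨P₀ • y.1, hYH P₀ y.1 y.2⟩
      map_zero' := Subtype.ext (smul_zero P₀)
      map_add' := fun x y => Subtype.ext (smul_add P₀ x.1 y.1) }
  have hPe : ∀ y : Y, ((Pe y : Y) : J) = P₀ • y.1 := fun _ => rfl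
  have hPepow : ∀ (e : ℕ) (y : Y), (((Pe ^ e) y : Y) : J) = P₀ ^ e • y.1 := by
    intro e
    induction e with
    | zero => intro y; simp
    | succ e ih => intro y; rw [pow_succ, Module.End.mul_apply, ih, hPe, pow_succ, mul_smul]
  obtain ⟨ι, hιadd, hιinj⟩ := hRank k
  let ιY : Y →+ (Fin d → ZMod (p ^ k)) :=
    AddMonoidHom.mk' (fun y => ι y.1) (fun a b => hιadd _ _ (hMk _ a.2.1) (hMk _ b.2.1))
  have hιY : Function.Injective ιY := by
    rw [injective_iff_map_eq_zero]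
    intro y hy
    exact Subtype.ext (hιinj y.1 (hMk _ y.2.1) hy)
  have hkill : ∀ y : Y, (Pe ^ 2 ^ (d * d)) y = 0 := fun y =>
    pow_kills_of_sq_zero (I := ↥I) (Y := ↥Y) (fun τ y => Subtype.ext (hYsq τ τ.2 y.1 y.2)) Pe
      (fun τ y => Subtype.ext (smul_comm (τ : GQ) P₀ y.1).symm)
      (fun y hy => Subtype.ext (hP₀ y.1 ⟨k, hMk _ y.2.1⟩ fun τ hτ =>
        congrArg Subtype.val (hy ⟨τ, hτ⟩))) ιY hιY y
  have hmem := hr {b | ∃ τ ∈ I, b = ev (P τ) - 2} (p ^ (n + k₀)) (pow_ne_zero _ hp.ne_zero)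
    (ev P₀ ^ 2 ^ (d * d)) (by
      intro ψ hψ l
      have hY : Ξ ψ ∈ Y := by
        refine ⟨hXM _ ⟨ψ, rfl⟩, fun τ hτ => ?_⟩
        rw [hΞT]
        have : ψ.comp (lat (ev (P τ - 2))).toAddMonoidHom = 0 := by
          refine AddMonoidHom.ext fun l => ?_
          have := hψ (ev (P τ) - 2) ⟨τ, hτ, rfl⟩ l
          rw [map_sub, map_ofNat]
          exact this
        rw [this, map_zero]
      have h1 := congrArg Subtype.val (hkill ⟨Ξ ψ, hY⟩)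
      rw [hPepow] at h1
      have h2 : Ξ (ψ.comp (lat (ev P₀ ^ 2 ^ (d * d))).toAddMonoidHom) = Ξ 0 := by
        rw [map_zero, ← map_pow, ← hΞT]
        exact h1
      exact DFunLike.congr_fun (hΞ h2) l)
  have hle : Ideal.span ({b | ∃ τ ∈ I, b = ev (P τ) - 2} ∪ {((p ^ (n + k₀) : ℕ) : 𝕋)}) ≤
      (maximalIdeal O ^ n).comap χ := by
    rw [Ideal.span_le]
    rintro b (⟨τ, hτ, rfl⟩ | rfl)
    · exact htr τ hτ
    · show χ _ ∈ maximalIdeal O ^ n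
      rw [map_natCast, Nat.cast_pow]
      exact Ideal.pow_le_pow_right (Nat.le_add_right _ _) (Ideal.pow_mem_pow hpO _)
  have h4 := hle hmem
  rw [Ideal.mem_comap, map_pow, map_pow, ← pow_mul] at h4
  exact h4

end Fermat.Agent.S36.Top
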