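import Fermat.Agent.GAL.PC.Core

/-!
# S36 / TOP36 : the core construction of GAL/PC with an explicit test set `X`

Same construction as `Fermat.Agent.GAL.PC.core_raw`; the finite set `X` of torsion points is an
explicit argument and the conclusion says in addition that `X ⊆ M` and that `M` is killed by a
fixed power of `p`.
-/

set_option autoImplicit false
set_option linter.unusedSectionVars false

namespace Fermat.Agent.S36.Top

open Fermat.Agent.GAL Fermat.Agent.GAL.PC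

local notation "Qbar" => AlgebraicClosure ℚ
local notation "GQ" => (AlgebraicClosure ℚ ≃ₐ[ℚ] AlgebraicClosure ℚ)

open CoreAux in
theorem core_X (hC : Fermat.Agent.Cheb.PreludeSpec) {p : ℕ} (hp : p.Prime) (S : Finset ℕ)
    (U : Set ℕ) (hpU : p ∈ U) (hUS : U ⊆ (↑S : Set ℕ))
    {𝓗 𝕋 J : Type*} [CommRing 𝓗] [CommRing 𝕋] [AddCommGroup J] [Module 𝓗 J]
    [DistribMulAction GQ J] [SMulCommClass GQ 𝓗 J] (gen : ℕ → 𝓗) (ev : 𝓗 →+* 𝕋)
    (hUnr : ∀ q : ℕ, q.Prime → q ∉ U → ∀ A : ValuationSubring Qbar, A.LiesOverPrime q →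
      ∀ σ ∈ A.inertiaSubgroupIn ℚ, ∀ x : J, (∃ n : ℕ, p ^ n • x = 0) → σ • x = x)
    (hFrob : ∀ ℓ : ℕ, ℓ.Prime → ℓ ∉ S → ∀ A : ValuationSubring Qbar, A.LiesOverPrime ℓ →
      ∀ σ : GQ, A.IsFrobeniusAt σ ℓ → ∀ x : J, (∃ n : ℕ, p ^ n • x = 0) →
        σ • σ • x - gen ℓ • (σ • x) + ℓ • x = 0)
    (hStab : ∀ x : J, (∃ n : ℕ, p ^ n • x = 0) →
      ∃ L : IntermediateField ℚ Qbar, FiniteDimensional ℚ L ∧
      ∀ σ : GQ, (∀ y ∈ L, σ y = y) → σ • x = x)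
    (n : ℕ) (X : Set J) (hXfin : X.Finite) (hXtors : ∀ x ∈ X, ∃ k : ℕ, p ^ k • x = 0)
    (hXsup : ∀ P : 𝓗, (∀ x ∈ X, P • x = 0) → ev P ∈ Ideal.span {((p : 𝕋)) ^ n}) :
    ∃ (t : GQ → 𝕋 ⧸ Ideal.span {((p : 𝕋)) ^ n}) (c : GQ →* 𝕋 ⧸ Ideal.span {((p : 𝕋)) ^ n}),
      IsPC (↑S : Set ℕ) (fun ℓ => Ideal.Quotient.mk _ (ev (gen ℓ))) t c ∧ IsUnrOutside U t ∧
      ∃ (M : AddSubgroup J) (P : GQ → 𝓗),
        (∀ x ∈ X, x ∈ M) ∧ (∃ k : ℕ, ∀ x ∈ M, p ^ k • x = 0) ∧ (∀ σ : GQ, ∀ x ∈ M, σ • x ∈ M) ∧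
        (∀ h : 𝓗, ∀ x ∈ M, h • x ∈ M) ∧ (∀ σ : GQ, t σ = Ideal.Quotient.mk _ (ev (P σ))) ∧
        (∀ (σ : GQ) (a : ℕ), (∀ (m : ℕ) [NeZero m], (∃ k : ℕ, m = p ^ k) →
          (cycloChar m σ : ZMod m) = a) → ∀ x ∈ M, σ • x + a • σ⁻¹ • x = P σ • x) := by
  classical
  have hpS : p ∈ S := Finset.mem_coe.1 (hUS hpU)
  have hStabX := fun x (hx : x ∈ X) => hStab x (hXtors x hx)
  -- a uniform exponent
  obtain ⟨k, hkn, hk⟩ : ∃ k : ℕ, n ≤ k ∧ ∀ x ∈ X, p ^ k • x = 0 := by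
    choose! e he using hXtors
    refine ⟨n + hXfin.toFinset.sup e, Nat.le_add_right _ _, fun x hx => ?_⟩
    have h1 : e x ≤ hXfin.toFinset.sup e := Finset.le_sup (f := e) (hXfin.mem_toFinset.2 hx)
    obtain ⟨d, hd⟩ := Nat.exists_eq_add_of_le (h1.trans (Nat.le_add_left _ n))
    rw [hd, pow_add, mul_comm, mul_smul, he x hx, smul_zero]
  set m := p ^ k with hm
  have : NeZero m := ⟨pow_ne_zero _ hp.ne_zero⟩
  have hmR : ((m : ℕ) : 𝕋 ⧸ Ideal.span {((p : 𝕋)) ^ n}) = 0 := by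
    rw [← map_natCast (Ideal.Quotient.mk (Ideal.span {((p : 𝕋)) ^ n})), Ideal.Quotient.eq_zero_iff_mem,
      Ideal.mem_span_singleton, hm, Nat.cast_pow]
    exact pow_dvd_pow _ hkn
  obtain ⟨L, hLfd, hLnorm, hLX, hLχ⟩ := exists_level hStabX hXfin m
  -- the module `M`
  let M : AddSubgroup J :=
    { carrier := {x | m • x = 0 ∧ ∀ σ : GQ, (∀ y ∈ L, σ y = y) → σ • x = x}
      zero_mem' := ⟨smul_zero _, fun σ _ => smul_zero _⟩
      add_mem' := fun {a b} ha hb => ⟨by rw [smul_add, ha.1, hb.1, add_zero],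
        fun σ hσ => by rw [smul_add, ha.2 σ hσ, hb.2 σ hσ]⟩
      neg_mem' := fun {a} ha => ⟨by rw [smul_neg, ha.1, neg_zero],
        fun σ hσ => by rw [smul_neg, ha.2 σ hσ]⟩ }
  have hMmem : ∀ x : J, x ∈ M ↔ (m • x = 0 ∧ ∀ σ : GQ, (∀ y ∈ L, σ y = y) → σ • x = x) :=
    fun x => Iff.rfl
  have hXM : ∀ x ∈ X, x ∈ M := fun x hx => ⟨hk x hx, fun σ hσ => hLX σ hσ x hx⟩
  have hMtors : ∀ x ∈ M, m • x = 0 := fun x hx => hx.1
  have hMp : ∀ x ∈ M, ∃ n : ℕ, p ^ n • x = 0 := fun x hx => ⟨k, hx.1⟩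
  have hMG : ∀ (σ : GQ), ∀ x ∈ M, σ • x ∈ M := by
    intro σ x hx
    refine ⟨by rw [smul_comm, hx.1, smul_zero], fun ρ hρ => ?_⟩
    have h1 : (σ⁻¹ * ρ * σ) • x = x := by
      apply hx.2
      intro y hy
      rw [AlgEquiv.mul_apply, AlgEquiv.mul_apply, hρ _ (hLnorm σ y hy)]
      exact σ.symm_apply_apply y
    rw [mul_smul, mul_smul, inv_smul_eq_iff] at h1
    exact h1
  have hMH : ∀ (h : 𝓗), ∀ x ∈ M, h • x ∈ M := by
    intro h x hx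
    exact ⟨by rw [smul_comm, hx.1, smul_zero], fun ρ hρ => by rw [smul_comm, hx.2 ρ hρ]⟩
  set χ := cycloChar m with hχ
  -- powers of Frobenius lifts
  have hFr : ∀ ℓ : ℕ, ℓ.Prime → ℓ ∉ S → ∀ A : ValuationSubring Qbar, A.LiesOverPrime ℓ →
      ∀ φ : GQ, A.IsFrobeniusAt φ ℓ → ∀ a : ℕ, ∀ x ∈ M,
        φ ^ a • x + ((χ (φ ^ a) : (ZMod m)ˣ) : ZMod m).val • (φ ^ a)⁻¹ • x =
          lucasV (gen ℓ) (ℓ : 𝓗) a • x := by
    intro ℓ hℓ hℓS A hA φ hφ a x hx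
    have hcop : Nat.Coprime ℓ m := by
      apply Nat.Coprime.pow_right
      exact (Nat.coprime_primes hℓ hp).2 (fun h => hℓS (h ▸ hpS))
    have h1 : ((χ φ : (ZMod m)ˣ) : ZMod m) = ℓ := cycloChar_of_isFrobeniusAt' m hℓ hcop hA hφ
    rw [← lucas_spec hMG (fun x hx => hFrob ℓ hℓ hℓS A hA φ hφ x (hMp x hx)) a x hx]
    congr 1
    apply nsmul_congr hMtors _ (hMG _ x hx)
    simp [h1]
  have hex : ∀ σ : GQ, ∃ P : 𝓗, ∀ x ∈ M,
      σ • x + ((χ σ : (ZMod m)ˣ) : ZMod m).val • σ⁻¹ • x = P • x := by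
    intro σ
    obtain ⟨ℓ, A, τ, a, b, hℓ, hℓS, hA, hτ, -, hτσ, -⟩ := hC L hLfd σ S
    refine ⟨lucasV (gen ℓ) (ℓ : 𝓗) a, fun x hx => ?_⟩
    have hρ : ∀ y ∈ L, (σ⁻¹ * τ ^ a) y = y := by
      intro y hy
      rw [AlgEquiv.mul_apply, hτσ y hy]
      exact σ.symm_apply_apply y
    have h1 : ∀ x ∈ M, τ ^ a • x = σ • x := by
      intro x hx
      have := hx.2 _ hρ
      rwa [mul_smul, inv_smul_eq_iff] at this
    have h2 : (τ ^ a)⁻¹ • x = σ⁻¹ • x := by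
      rw [inv_smul_eq_iff, h1 _ (hMG _ x hx), smul_inv_smul]
    have h3 : χ (τ ^ a) = χ σ := by
      have := hLχ _ hρ
      rw [map_mul, map_inv, inv_mul_eq_one] at this
      exact this.symm
    rw [← hFr ℓ hℓ hℓS A hA τ hτ a x hx, h1 x hx, h2, h3]
  choose P hP using hex
  have D : Dat M m χ P := ⟨hMtors, hMG, hMH, hP⟩
  have key : ∀ Q Q' : 𝓗, (∀ x ∈ M, Q • x = Q' • x) →
      Ideal.Quotient.mk (Ideal.span {((p : 𝕋)) ^ n}) (ev Q) = Ideal.Quotient.mk _ (ev Q') := by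
    intro Q Q' h
    rw [Ideal.Quotient.eq, ← map_sub]
    apply hXsup
    intro x hx
    rw [sub_smul, h x (hXM x hx), sub_self]
  have hc : ∀ τ : GQ, cycTo (𝕋 ⧸ Ideal.span {((p : 𝕋)) ^ n}) m hmR τ =
      Ideal.Quotient.mk _ (ev ((((χ τ : (ZMod m)ˣ) : ZMod m).val : ℕ) : 𝓗)) := by
    intro τ
    rw [map_natCast, map_natCast, ZMod.natCast_val]
    rfl
  have hin : ∀ q : ℕ, q.Prime → q ∉ U → ∀ A : ValuationSubring Qbar, A.LiesOverPrime q →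
      ∀ τ ∈ A.inertiaSubgroupIn ℚ, ∀ σ : GQ,
        Ideal.Quotient.mk (Ideal.span {((p : 𝕋)) ^ n}) (ev (P (σ * τ))) =
          Ideal.Quotient.mk _ (ev (P σ)) :=
    fun q hq hqU A hA τ hτ σ => key _ _ fun x hx =>
      D.triv_spec σ (fun x hx => hUnr q hq hqU A hA τ hτ x (hMp x hx))
        (cycloChar_of_mem_inertia' m hq (by
          apply Nat.Coprime.pow_right
          exact (Nat.coprime_primes hq hp).2 (fun h => hqU (h ▸ hpU))) hA hτ) hx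
  refine ⟨fun σ => Ideal.Quotient.mk _ (ev (P σ)), cycTo _ m hmR, ?_, hin, M, P, hXM,
    ⟨k, hMtors⟩, hMG, hMH, fun σ => rfl, fun σ a ha x hx => ?_⟩
  swap
  · rw [← hP σ x hx]
    congr 1
    apply nsmul_congr hMtors _ (hMG _ x hx)
    rw [ZMod.natCast_val, ZMod.cast_id', id_eq]
    exact (ha m ⟨k, rfl⟩).symm
  exact
    { cyc := isCyc_cycTo _ m hmR _ (fun ℓ hℓ hdvd => by
        have := (Nat.prime_dvd_prime_iff_eq hℓ hp).1 (hℓ.dvd_of_dvd_pow hdvd)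
        rw [this]; exact hpS)
      lvl := ⟨L, hLfd, fun τ hτ σ => key _ _ fun x hx =>
        D.triv_spec σ (fun x hx => hx.2 τ hτ) (hLχ τ hτ) hx⟩
      one := by
        show Ideal.Quotient.mk _ (ev (P 1)) = 2
        rw [key (P 1) 2 fun x hx => D.one_spec hx, map_ofNat, map_ofNat]
      mul := fun σ τ => by
        show Ideal.Quotient.mk _ (ev (P σ)) * Ideal.Quotient.mk _ (ev (P τ)) =
          Ideal.Quotient.mk _ (ev (P (σ * τ))) + cycTo _ m hmR τ *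
            Ideal.Quotient.mk _ (ev (P (σ * τ⁻¹)))
        rw [hc τ, ← map_mul, ← map_mul, ← map_mul, ← map_mul, ← map_add, ← map_add]
        exact key _ _ fun x hx => D.mul_spec σ τ hx
      frob := fun ℓ hℓ hℓS A hA σ hσ => by
        refine key _ _ fun x hx => ?_
        have := hFr ℓ hℓ hℓS A hA σ hσ 1 x hx
        simp only [pow_one, lucasV] at this
        rw [← this, hP σ x hx]
      comm := fun σ τ => key _ _ fun x hx => D.comm_spec σ τ hx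
      inert := fun q hq hqS A hA τ hτ σ => hin q hq (fun h => hqS (hUS h)) A hA τ hτ σ }

end Fermat.Agent.S36.Top
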