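import Fermat.Agent.GAL.EigenChar.Per
import Fermat.Agent.S21.InjCore
import Fermat.Agent.S23.Descent

/-!
# S36 / TOP36 (shared with TOP-35) : the period lattice has rank at least `2 dim S₂(Γ₀(N))`

`[T35-RANK]`.  The period lattice spans the dual of `S₂(Γ₀(N))` over `ℝ`: otherwise there would be
a nonzero cusp form all of whose periods are purely imaginary, which is excluded by the maximum
principle (`S21.deriv_eq_zero_of_re_invariant`).
-/

set_option autoImplicit false

namespace Fermat.Agent.S36.Top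

open Module CongruenceSubgroup ModularCurve Fermat.Agent.GAL.EigenChar

/-- Linear algebra: a finitely generated subgroup `Λ` of the dual of a complex vector space `V`
such that no nonzero `f : V` has `Re l(f) = 0` for all `l ∈ Λ` has rank at least `2 dim V`. -/
theorem two_mul_finrank_le_of_re {V : Type*} [AddCommGroup V] [Module ℂ V]
    [FiniteDimensional ℂ V] (Λ : Submodule ℤ (Module.Dual ℂ V)) [Module.Finite ℤ Λ]
    [Module.Free ℤ Λ] (h : ∀ f : V, (∀ l ∈ Λ, (l f).re = 0) → f = 0) :
    2 * finrank ℂ V ≤ finrank ℤ Λ := by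
  classical
  let b := Module.Free.chooseBasis ℤ Λ
  let W : Submodule ℝ (Module.Dual ℂ V) :=
    Submodule.span ℝ (Set.range (fun i => ((b i : Λ) : Module.Dual ℂ V)))
  have hΛW : ∀ x : Λ, (x : Module.Dual ℂ V) ∈ W := by
    intro x
    have hx : x ∈ Submodule.span ℤ (Set.range b) := by rw [b.span_eq]; exact Submodule.mem_top
    induction hx using Submodule.span_induction with
    | mem y hy =>
      obtain ⟨i, rfl⟩ := hy
      exact Submodule.subset_span ⟨i, rfl⟩
    | zero => exact W.zero_mem
    | add y z _ _ hy hz => exact W.add_mem hy hz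
    | smul n y _ hy =>
      have : ((n • y : Λ) : Module.Dual ℂ V) = (n : ℝ) • (y : Module.Dual ℂ V) := by
        rw [Int.cast_smul_eq_zsmul]; rfl
      rw [this]
      exact W.smul_mem _ hy
  have hW : W = ⊤ := by
    by_contra hW
    obtain ⟨φ, hφ0, hφW⟩ := Submodule.exists_le_ker_of_lt_top W (lt_top_iff_ne_top.2 hW)
    let Φ : Module.Dual ℂ (Module.Dual ℂ V) := Module.Dual.extendRCLike (𝕜 := ℂ) φ
    have hΦ : ∀ l, (Φ l).re = φ l := fun l => Module.Dual.re_extendRCLike_apply (𝕜 := ℂ) φ l
    let f : V := (Module.evalEquiv ℂ V).symm Φ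
    have hf : ∀ l : Module.Dual ℂ V, l f = Φ l := fun l =>
      Module.apply_evalEquiv_symm_apply ℂ V l Φ
    have hf0 : f = 0 := h f fun l hl => by
      rw [hf, hΦ]
      exact hφW (hΛW ⟨l, hl⟩)
    apply hφ0
    refine LinearMap.ext fun l => ?_
    rw [← hΦ, ← hf, hf0, map_zero]
    rfl
  have h1 : finrank ℝ (Module.Dual ℂ V) = 2 * finrank ℂ V := by
    rw [finrank_real_of_complex, Subspace.dual_finrank_eq]
  have h2 : finrank ℝ W ≤ Fintype.card (Module.Free.ChooseBasisIndex ℤ Λ) :=
    finrank_range_le_card (R := ℝ) (fun i => ((b i : Λ) : Module.Dual ℂ V))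
  rw [hW, finrank_top, h1, ← Module.finrank_eq_card_chooseBasisIndex] at h2
  exact h2

variable {N : ℕ} [NeZero N]

/-- A cusp form all of whose periods are purely imaginary vanishes. -/
theorem eq_zero_of_re_per {f : CuspForm (Gamma0 N) 2} (h : ∀ γ : Gamma0 N, (per γ f).re = 0) :
    f = 0 := by
  have hF := S21.prim_spec N f
  have key := S21.deriv_eq_zero_of_re_invariant N (S21.prim N f) f hF.1
    (fun γ hγ => ⟨(per ⟨γ, hγ⟩ f).im, fun z => by
      rw [← S21.periodMap_eq_prim f ⟨γ, hγ⟩ z, ← per_apply]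
      apply Complex.ext
      · simp [h ⟨γ, hγ⟩]
      · simp⟩) hF.2.2.2
  ext τ
  exact key τ

/-- **[T35-RANK]** -/
theorem two_mul_finrank_le_finrank_perLat (N : ℕ) [NeZero N] :
    2 * finrank ℂ (CuspForm (Gamma0 N) 2) ≤ finrank ℤ (perLat N) := by
  have : FiniteDimensional ℂ (CuspForm (Gamma0 N) 2) := S23.finiteDimensional_cuspForm N 2
  refine two_mul_finrank_le_of_re (perLat N) fun f hf => ?_
  exact eq_zero_of_re_per fun γ => hf _ (per_mem γ)

end Fermat.Agent.S36.Top
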