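import Fermat.Agent.S36.Top.Rank
import Fermat.Agent.S36.Top.CardJ
import Fermat.Agent.GAL.PC.Glue

/-!
# S36 / TOP36 (shared with TOP-35) : the Kummer map `Hom(Λ, ℤ/m) → J₀(N)[m]` is onto

By counting (`[T35-RANK]`, `[T35-CARDJ]`).  Consequences:

* `oldkill` `[T35-OLDKILL]` : a Hecke polynomial which is zero in the Hecke algebra of cusp forms of
  level `N` kills the `p`-power torsion of `J₀(N)`;
* `exists_rank` `[RANK]` : `J₀(N)[p ^ k]` embeds into `(ℤ/p^k)^d` with `d` independent of `k`.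
-/

set_option autoImplicit false

open AlgebraicCurve ModularCurve CongruenceSubgroup

namespace Fermat.Agent.S36.Top

open Fermat.Agent.S24 Fermat.Agent.GAL Fermat.Agent.GAL.PC Fermat.Agent.GAL.EigenChar

/-- the number of homomorphisms from a free `ℤ`-module of finite rank to `ℤ/m` -/
theorem card_addHom_zmod {Λ : Type*} [AddCommGroup Λ] [Module.Free ℤ Λ] [Module.Finite ℤ Λ]
    (m : ℕ) : Nat.card (Λ →+ ZMod m) = m ^ Module.finrank ℤ Λ := by
  classical
  let b := Module.Free.chooseBasis ℤ Λ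
  let e : (Λ →+ ZMod m) ≃ (Module.Free.ChooseBasisIndex ℤ Λ → ZMod m) :=
    (addMonoidHomLequivInt ℤ).toEquiv.trans (b.constr ℤ).symm.toEquiv
  rw [Nat.card_congr e, Nat.card_fun, Nat.card_zmod, Nat.card_eq_fintype_card,
    Module.finrank_eq_card_chooseBasisIndex]

variable {N : ℕ} [NeZero N]

/-- **The Kummer map restricted to the characters of the period lattice is onto `J₀(N)[m]`.** -/
theorem exists_perChar_of_torsion {m : ℕ} (hm : 0 < m) (κ : GoodHom N m →+ JZero N)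
    (hκ : Function.Injective κ) (x : JZero N) (hx : m • x = 0) :
    ∃ ψ : perLat N →+ ZMod m, κ (PerChar.toGoodHom m (PerChar.mk ψ)) = x := by
  have hcard := card_torsion_JZero N m hm
  have hfin : Finite (Pic0.torsion Kb (FN N) m) :=
    Nat.finite_of_card_ne_zero (by rw [hcard]; exact (pow_pos hm _).ne')
  have hmem : ∀ ψ : perLat N →+ ZMod m,
      κ (PerChar.toGoodHom m (PerChar.mk ψ)) ∈ Pic0.torsion Kb (FN N) m := by
    intro ψ
    rw [Pic0.mem_torsion, natCast_zsmul, ← map_nsmul]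
    have : m • (PerChar.mk ψ : PerChar N (ZMod m)) = 0 := by
      refine AddMonoidHom.ext fun l => ?_
      change m • ψ l = 0
      rw [nsmul_eq_mul, ZMod.natCast_self, zero_mul]
    rw [← map_nsmul, this, map_zero, map_zero]
  let Θ : (perLat N →+ ZMod m) → Pic0.torsion Kb (FN N) m := fun ψ => ⟨_, hmem ψ⟩
  have hΘ : Function.Injective Θ := by
    intro ψ ψ' h
    exact PerChar.toGoodHom_injective m (hκ (congrArg Subtype.val h))
  have hle : Nat.card (Pic0.torsion Kb (FN N) m) ≤ Nat.card (perLat N →+ ZMod m) := by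
    rw [hcard, card_addHom_zmod]
    exact Nat.pow_le_pow_right hm (two_mul_finrank_le_finrank_perLat N)
  obtain ⟨ψ, hψ⟩ := (hΘ.bijective_of_nat_card_le hle).2
    ⟨x, by rw [Pic0.mem_torsion, natCast_zsmul]; exact hx⟩
  exact ⟨ψ, congrArg Subtype.val hψ⟩

variable {p : ℕ}

theorem coe_nsmul_eq_zero {J : Type*} [AddCommGroup J] (n : ℕ) (x : ptors J p) (h : n • x = 0) :
    n • (x : J) = 0 := by
  have := congrArg Subtype.val h
  simpa using this

theorem nsmul_eq_zero_of_coe {J : Type*} [AddCommGroup J] (n : ℕ) (x : ptors J p)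
    (h : n • (x : J) = 0) : n • x = 0 := Subtype.ext (by simpa using h)

theorem exists_Xi_eq (hp : p.Prime) (k : ℕ) (κ : GoodHom N (p ^ k) →+ JZero N)
    (hκ : Function.Injective κ) (x : ptors (JZero N) p) (hx : p ^ k • x = 0) :
    ∃ ψ : perLat N →+ ZMod (p ^ k), Xi κ k rfl ψ = x := by
  obtain ⟨ψ, hψ⟩ := exists_perChar_of_torsion (pow_pos hp.pos k) κ hκ x.1
    (coe_nsmul_eq_zero _ x hx)
  exact ⟨ψ, Subtype.ext ((coe_Xi κ k rfl ψ).trans hψ)⟩

/-- abstract form of `oldkill` -/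
theorem kill_of_equivariant {ι Λ X A : Type*} [AddCommGroup Λ] [AddCommGroup X] [AddCommGroup A]
    (f : MvPolynomial ι ℤ →+* Module.End ℤ X) (T : ι → Module.End ℤ X)
    (hf : ∀ i, f (MvPolynomial.X i) = T i)
    {𝕋 : Type*} [CommRing 𝕋] (a : ι → 𝕋) (lat : 𝕋 →+* Module.End ℤ Λ)
    (Ξ : (Λ →+ A) →+ X)
    (hX : ∀ i ψ, T i (Ξ ψ) = Ξ (ψ.comp (lat (a i)).toAddMonoidHom))
    (t : MvPolynomial ι ℤ) (ht : MvPolynomial.aeval a t = 0) (ψ : Λ →+ A) : f t (Ξ ψ) = 0 := by
  let g : MvPolynomial ι ℤ →+* Module.End ℤ Λ := lat.comp (MvPolynomial.aeval a).toRingHom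
  have hg : ∀ P, g P = lat (MvPolynomial.aeval a P) := fun _ => rfl
  rw [equivariant_of_gen f g Ξ (fun i ψ => by rw [hf, hg, MvPolynomial.aeval_X, hX]) t ψ, hg, ht,
    map_zero]
  have : ψ.comp (0 : Module.End ℤ Λ).toAddMonoidHom = 0 := by
    refine AddMonoidHom.ext fun l => ?_
    change ψ ((0 : Module.End ℤ Λ) l) = 0
    rw [LinearMap.zero_apply, map_zero]
  rw [this, map_zero]

/-- **[T35-OLDKILL]** -/
theorem oldkill (hp : p.Prime) (S : Set ℕ) (hNS : ∀ ℓ : ℕ, ℓ.Prime → ℓ ∉ S → ¬ ℓ ∣ N)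
    (hS : ∀ k : ℕ, SUP N (p ^ k))
    (f : MvPolynomial ℕ ℤ →+* Module.End ℤ (ptors (JZero N) p))
    (hf : ∀ ℓ, f (MvPolynomial.X ℓ) = Tp N p S ℓ)
    (t : MvPolynomial ℕ ℤ) (ht : MvPolynomial.aeval (heckeT N S) t = 0)
    (x : ptors (JZero N) p) : f t x = 0 := by
  obtain ⟨k, hk⟩ := x.2
  obtain ⟨κ, hκ, hκT⟩ := hS k
  obtain ⟨ψ, hψ⟩ := exists_Xi_eq hp k κ hκ x (nsmul_eq_zero_of_coe _ x hk)
  have key := kill_of_equivariant f (Tp N p S) hf (heckeT N S) (latAct N S) (Xi κ k rfl)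
    (Tp_Xi κ k rfl hκT hNS) t ht ψ
  exact (congrArg (f t) hψ).symm.trans key

/-- **[RANK]** -/
theorem exists_rank (hp : p.Prime) (hS : ∀ k : ℕ, SUP N (p ^ k)) :
    ∃ d : ℕ, ∀ k : ℕ, ∃ ι : ptors (JZero N) p → (Fin d → ZMod (p ^ k)),
      (∀ x y, p ^ k • x = 0 → p ^ k • y = 0 → ι (x + y) = ι x + ι y) ∧
      ∀ x, p ^ k • x = 0 → ι x = 0 → x = 0 := by
  classical
  refine ⟨Module.finrank ℤ (perLat N), fun k => ?_⟩
  obtain ⟨κ, hκ, -⟩ := hS k
  let b : Module.Basis (Fin (Module.finrank ℤ (perLat N))) ℤ (perLat N) :=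
    Module.finBasis ℤ (perLat N)
  have hex := exists_Xi_eq hp k κ hκ
  let g : ptors (JZero N) p → (perLat N →+ ZMod (p ^ k)) := fun x =>
    if h : p ^ k • x = 0 then (hex x h).choose else 0
  have hg : ∀ x, p ^ k • x = 0 → Xi κ k rfl (g x) = x := by
    intro x h
    simp only [g, dif_pos h]
    exact (hex x h).choose_spec
  have hinj := Xi_injective κ k rfl hκ
  refine ⟨fun x i => g x (b i), fun x y hx hy => ?_, fun x hx h0 => ?_⟩
  · have hxy : p ^ k • (x + y) = 0 := by rw [smul_add, hx, hy, add_zero]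
    have : g (x + y) = g x + g y := by
      apply hinj
      rw [map_add, hg _ hxy, hg _ hx, hg _ hy]
    funext i
    show g (x + y) (b i) = g x (b i) + g y (b i)
    rw [this]
    rfl
  · have : g x = 0 := by
      have h1 : (g x).toIntLinearMap = 0 := b.ext fun i => congrFun h0 i
      exact AddMonoidHom.toIntLinearMap_injective (by rw [h1]; rfl)
    rw [← hg x hx, this, map_zero]

end Fermat.Agent.S36.Top
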